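import Fermat.Agent.PicTorsion.Descent.Rigidity

/-!
# Torsion of `Pic⁰` in characteristic zero: reduction to `ℂ`
-/

set_option autoImplicit false
set_option linter.style.haveILetI false

open AlgebraicCurve Polynomial

namespace FLTA.PicTorsion

/-- The count over a countable algebraically closed field. -/
theorem natCard_torsion_countable {K₀ F₀ : Type*} [Field K₀] [Field F₀] [Algebra K₀ F₀]
    [IsAlgClosed K₀] [CharZero K₀] [Countable K₀] [Curves.IsSepFunctionField K₀ F₀]
    {x y : F₀} {p : Polynomial (Polynomial K₀)} {m : ℕ} (h : IsPres x y p m)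
    (n : ℕ) (hn : n ≠ 0) :
    Nat.card (Pic0.torsion K₀ F₀ n) = n ^ (2 * genusFF K₀ F₀) := by
  obtain ⟨e⟩ := nonempty_ringHom_complex K₀
  obtain ⟨FL, _, _, x', y', h'⟩ := h.exists_model e
  haveI := h'.isSepFunctionField
  haveI := h'.essFiniteType
  obtain ⟨φ, hb, hx, hy⟩ := h.exists_isBaseChange e h'
  have hcard := natCard_torsion_complex FL n hn
  haveI : Finite (Pic0.torsion ℂ FL n) :=
    Nat.finite_of_card_ne_zero (hcard ▸ pow_ne_zero _ hn)
  rw [← hb.genusFF_eq, ← hcard]
  exact Nat.card_congr (Equiv.ofBijective _ ⟨hb.torsionMap_injective n,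
    torsionMap_surjective hb h (hx.symm ▸ hy.symm ▸ h') n⟩)

/-- Over an algebraically closed field of characteristic zero, the `n`-torsion of `Pic⁰` has
`n ^ (2 g)` elements. -/
theorem natCard_torsion_charZero (K F : Type*) [Field K] [Field F] [Algebra K F] [IsAlgClosed K]
    [CharZero K] [IsCurveOver K F] [Algebra.EssFiniteType K F] (n : ℕ) (hn : n ≠ 0) :
    Nat.card (Pic0.torsion K F n) = n ^ (2 * genusFF K F) := by
  classical
  obtain ⟨x, y, p, m, hP⟩ := exists_isPres K F
  haveI := hP.isSepFunctionField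
  set N := n ^ (2 * genusFF K F)
  have key : ∀ s : Finset (Pic0.torsion K F n), ∃ t : Finset (Pic0.torsion K F n),
      t.card = N ∧ s ⊆ t := by
    intro s
    have hrep : ∀ c : Pic0.torsion K F n, ∃ D : Divisor.degZero (K := K) (F := F),
        Pic0.mk D = (c : Pic0 K F) := fun c => Pic0.mk_surjective _
    choose D hD using hrep
    obtain ⟨k, hk, hkc, hkalg⟩ := exists_countable_isAlgClosed_subfield
      (coeffSet p ∪ xval x '' (↑(s.biUnion fun c => (D c : Divisor K F).support) :
        Set (Place K F)))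
      ((countable_coeffSet p).union ((Finset.countable_toSet _).image _))
    obtain ⟨p₀, hp₀⟩ := exists_map_eq_of_coeffSet_subset (k := k)
      (Set.subset_union_left.trans hk)
    obtain ⟨x₀, y₀, hP₀, hx₀, hy₀⟩ := hP.restrict k hp₀
    haveI := hP₀.isSepFunctionField
    haveI : Countable k := hkc
    haveI : IsAlgClosed k := hkalg
    obtain ⟨φ, hb, hφx, -⟩ := hP₀.exists_isBaseChange k.subtype (x' := x) (y' := y)
      (hp₀.symm ▸ hP)
    have hcard : Nat.card (Pic0.torsion k (IntermediateField.adjoin k ({x, y} : Set F)) n) = N := by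
      rw [natCard_torsion_countable hP₀ n hn, ← hb.genusFF_eq]
    haveI : Finite (Pic0.torsion k (IntermediateField.adjoin k ({x, y} : Set F)) n) :=
      Nat.finite_of_card_ne_zero (hcard ▸ pow_ne_zero _ hn)
    haveI : Fintype (Pic0.torsion k (IntermediateField.adjoin k ({x, y} : Set F)) n) :=
      Fintype.ofFinite _
    refine ⟨Finset.univ.map ⟨hb.torsionMap n, hb.torsionMap_injective n⟩, ?_, fun c hc => ?_⟩
    · rw [Finset.card_map, Finset.card_univ, ← Nat.card_eq_fintype_card, hcard]
    · obtain ⟨D₀, hD₀⟩ := hb.exists_pushDegZero_eq (D c) fun w hw =>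
        hb.mem_range_of_xval hφx hP.transcendental fun _ =>
          ⟨⟨xval x w, hk (Or.inr ⟨w, Finset.mem_biUnion.mpr ⟨c, hc, hw⟩, rfl⟩)⟩, rfl⟩
      have hc₀ : Pic0.mk D₀ ∈ Pic0.torsion k _ n := by
        rw [← hb.pic0Map_mem_torsion_iff, hb.pic0Map_mk, hD₀, hD]
        exact c.2
      refine Finset.mem_map.mpr ⟨⟨Pic0.mk D₀, hc₀⟩, Finset.mem_univ _, Subtype.ext ?_⟩
      show hb.pic0Map (Pic0.mk D₀) = c
      rw [hb.pic0Map_mk, hD₀, hD]
  obtain ⟨t₀, ht₀, -⟩ := key ∅
  have htop : ∀ c : Pic0.torsion K F n, c ∈ t₀ := by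
    intro c
    by_contra hc
    obtain ⟨t, ht, hst⟩ := key (insert c t₀)
    have := Finset.card_le_card hst
    rw [Finset.card_insert_of_notMem hc] at this
    omega
  rw [← Set.ncard_univ, ← ht₀, ← Set.ncard_coe_finset]
  congr 1
  exact (Set.eq_univ_of_forall fun c => Finset.mem_coe.mpr (htop c)).symm

end FLTA.PicTorsion
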