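import Mathlib.FieldTheory.AlgebraicClosure
import Mathlib.FieldTheory.IsAlgClosed.Classification
import Mathlib.FieldTheory.RatFunc.Basic
import Mathlib.RingTheory.Algebraic.Cardinality
import Mathlib.RingTheory.AlgebraicIndependent.TranscendenceBasis
import Mathlib.Analysis.Complex.Polynomial.Basic
import Mathlib.Analysis.Complex.Cardinality
import Mathlib.RingTheory.AlgebraicIndependent.Adjoin
import Mathlib.SetTheory.Cardinal.Subfield
import Mathlib.LinearAlgebra.Dual.Lemmas

/-!
# Countable algebraically closed subfields and their embeddings into `ℂ`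

* `exists_countable_isAlgClosed_subfield`: a countable set lies in a countable algebraically
  closed subfield.
* `exists_ringHom_extend`, `infinite_setOf_extend_apply`: embeddings into `ℂ` extend, and the
  image of a transcendental element under extensions takes infinitely many values.
* `mem_range_map_of_isAlgebraic`: `K₀(X)` is algebraically closed in `L(X)`.
-/

set_option autoImplicit false

noncomputable section

open Cardinal Polynomial

namespace FLTA.PicTorsion

/-- A countable subset of an algebraically closed field lies in a countable algebraically closed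
subfield. -/
theorem exists_countable_isAlgClosed_subfield {K : Type*} [Field K] [IsAlgClosed K] (S : Set K)
    (hS : S.Countable) : ∃ k : Subfield K, S ⊆ k ∧ Countable k ∧ IsAlgClosed k := by
  set k₀ : Subfield K := Subfield.closure S with hk₀
  have h₀ : #k₀ ≤ ℵ₀ := by
    refine (Subfield.cardinalMk_closure_le_max S).trans (max_le ?_ le_rfl)
    exact Set.countable_coe_iff.mpr hS |> Cardinal.mk_le_aleph0_iff.mpr
  set A : IntermediateField k₀ K := algebraicClosure k₀ K
  have hA : #A ≤ ℵ₀ :=
    (Algebra.IsAlgebraic.cardinalMk_le_max k₀ A).trans (max_le h₀ le_rfl)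
  refine ⟨A.toSubfield, fun s hs => ?_, Cardinal.mk_le_aleph0_iff.mp hA, ?_⟩
  · exact A.algebraMap_mem ⟨s, Subfield.subset_closure hs⟩
  · exact (IsAlgClosure.isAlgClosed k₀ : IsAlgClosed A)

/-- An embedding into `ℂ` of a countable field extends to every countable extension field, and
the images of a transcendental element under such extensions form an infinite set. -/
theorem infinite_setOf_extend_apply {K₁ K₃ : Type*} [Field K₁] [Field K₃] [Algebra K₁ K₃]
    [Countable K₃] (e : K₁ →+* ℂ) {t : K₃} (ht : Transcendental K₁ t) :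
    {z : ℂ | ∃ e' : K₃ →+* ℂ, e'.comp (algebraMap K₁ K₃) = e ∧ e' t = z}.Infinite := by
  classical
  have : Countable K₁ := (algebraMap K₁ K₃).injective.countable
  letI : Algebra K₁ ℂ := e.toAlgebra
  -- a transcendence basis of `K₃` containing `t`, and one of `ℂ`
  obtain ⟨b, htb, hb⟩ := exists_isTranscendenceBasis_superset (R := K₁) (A := K₃) (s := {t})
    ((algebraicIndependent_singleton_iff (x := fun a : ({t} : Set K₃) => id (a : K₃)) ⟨t, rfl⟩).mpr ht)
  obtain ⟨u, hu⟩ := exists_isTranscendenceBasis K₁ ℂ
  have hu_inf : Infinite u := by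
    by_contra hfin
    rw [not_infinite_iff_finite] at hfin
    have h2 : #ℂ ≤ ℵ₀ := by
      refine (Cardinal.lift_le.mp ?_)
      simpa using (IsAlgClosed.cardinal_le_max_transcendence_basis _ hu).trans
        (max_le (max_le (Cardinal.lift_le_aleph0.mpr (Cardinal.mk_le_aleph0_iff.mpr inferInstance))
          (Cardinal.lift_le_aleph0.mpr (Cardinal.mk_le_aleph0_iff.mpr inferInstance))) le_rfl)
    exact not_countable_complex (Set.countable_univ_iff.mpr (Cardinal.mk_le_aleph0_iff.mp h2))
  obtain ⟨i₀, hi₀⟩ := Countable.exists_injective_nat b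
  let ι₀ : b ↪ u := ⟨fun x => Infinite.natEmbedding u (i₀ x),
    fun x y h => hi₀ ((Infinite.natEmbedding u).injective h)⟩
  have key : ∀ z : u, ∃ e' : K₃ →+* ℂ, e'.comp (algebraMap K₁ K₃) = e ∧ e' t = z := by
    intro z
    let f : b → ℂ := fun x => (Equiv.swap (ι₀ ⟨t, htb rfl⟩) z (ι₀ x) : ℂ)
    have hf : AlgebraicIndependent K₁ f :=
      hu.1.comp _ ((Equiv.injective _).comp ι₀.injective)
    set E := IntermediateField.adjoin K₁ (Set.range ((↑) : b → K₃)) with hE
    let j : E →ₐ[K₁] ℂ := (IntermediateField.adjoin K₁ (Set.range f)).val.comp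
      (hb.1.aevalEquivField.symm.trans hf.aevalEquivField).toAlgHom
    letI : Algebra E ℂ := j.toRingHom.toAlgebra
    haveI : Algebra.IsAlgebraic E K₃ := hb.isAlgebraic_field
    let e₃ : K₃ →ₐ[E] ℂ := IsAlgClosed.lift
    refine ⟨e₃.toRingHom, RingHom.ext fun a => ?_, ?_⟩
    · have h := e₃.commutes (algebraMap K₁ E a)
      rw [← IsScalarTower.algebraMap_apply K₁ E K₃] at h
      exact h.trans (j.commutes a)
    · have hmem : t ∈ E := IntermediateField.subset_adjoin _ _ ⟨⟨t, htb rfl⟩, rfl⟩
      have h : e₃ t = j ⟨t, hmem⟩ := e₃.commutes ⟨t, hmem⟩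
      refine h.trans ?_
      have h1 : hb.1.aevalEquivField.symm ⟨t, hmem⟩ =
          algebraMap (MvPolynomial b K₁) _ (MvPolynomial.X ⟨t, htb rfl⟩) := by
        rw [AlgEquiv.symm_apply_eq]
        apply Subtype.ext
        simp
      show ((hf.aevalEquivField (hb.1.aevalEquivField.symm ⟨t, hmem⟩) :
        IntermediateField.adjoin K₁ (Set.range f)) : ℂ) = _
      rw [h1]
      simp [f]
  refine Set.Infinite.mono ?_ (Set.infinite_range_of_injective
    (f := fun z : u => (z : ℂ)) Subtype.val_injective)
  rintro _ ⟨z, rfl⟩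
  exact key z

theorem exists_ringHom_extend {K₁ K₃ : Type*} [Field K₁] [Field K₃] [Algebra K₁ K₃]
    [Countable K₃] (e : K₁ →+* ℂ) :
    ∃ e' : K₃ →+* ℂ, e'.comp (algebraMap K₁ K₃) = e := by
  by_cases h : ∃ t : K₃, Transcendental K₁ t
  · obtain ⟨t, ht⟩ := h
    obtain ⟨z, e', he', -⟩ := (infinite_setOf_extend_apply e ht).nonempty
    exact ⟨e', he'⟩
  · letI : Algebra K₁ ℂ := e.toAlgebra
    haveI : Algebra.IsAlgebraic K₁ K₃ := ⟨fun t => by
      by_contra hc
      exact h ⟨t, hc⟩⟩
    exact ⟨(IsAlgClosed.lift : K₃ →ₐ[K₁] ℂ).toRingHom,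
      RingHom.ext (IsAlgClosed.lift : K₃ →ₐ[K₁] ℂ).commutes⟩

/-- A countable field of characteristic zero embeds into `ℂ`. -/
theorem nonempty_ringHom_complex (K₁ : Type*) [Field K₁] [Countable K₁] [CharZero K₁] :
    Nonempty (K₁ →+* ℂ) := by
  obtain ⟨e', -⟩ := exists_ringHom_extend (K₁ := ℚ) (K₃ := K₁) (algebraMap ℚ ℂ)
  exact ⟨e'⟩

/-- `K₀(X)` is algebraically closed in `L(X)` when `K₀` is algebraically closed. -/
theorem mem_range_map_of_isAlgebraic {K₀ L : Type*} [Field K₀] [Field L] [IsAlgClosed K₀]
    [CharZero K₀] (e : K₀ →+* L) {c : RatFunc L}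
    (hc : ∃ r : Polynomial (Polynomial K₀), r ≠ 0 ∧
      (r.map ((algebraMap L[X] (RatFunc L)).comp (Polynomial.mapRingHom e))).eval c = 0) :
    ∃ P Q : K₀[X], Q ≠ 0 ∧
      c * algebraMap L[X] (RatFunc L) (Q.map e) = algebraMap L[X] (RatFunc L) (P.map e) := by
  classical
  obtain ⟨r, hr, hrc⟩ := hc
  set N : L[X] := c.num with hN
  set D : L[X] := c.denom with hD
  have hD0 : D ≠ 0 := RatFunc.denom_ne_zero c
  set d := r.natDegree with hd
  -- the relation, with denominators cleared
  have hrel : ∑ i ∈ Finset.range (d + 1), (r.coeff i).map e * N ^ i * D ^ (d - i) = 0 := by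
    apply RatFunc.algebraMap_injective L
    rw [map_zero, map_sum]
    rw [eval_map, eval₂_eq_sum_range] at hrc
    calc _ = (∑ i ∈ Finset.range (d + 1),
          algebraMap L[X] (RatFunc L) ((r.coeff i).map e) * c ^ i) *
            algebraMap L[X] (RatFunc L) D ^ d := by
          rw [Finset.sum_mul]
          refine Finset.sum_congr rfl fun i hi => ?_
          have hi' : i ≤ d := Nat.lt_succ_iff.mp (Finset.mem_range.mp hi)
          have hc' : c * algebraMap L[X] (RatFunc L) D = algebraMap L[X] (RatFunc L) N := by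
            conv_lhs => rw [← RatFunc.num_div_denom c]
            exact div_mul_cancel₀ _ (RatFunc.algebraMap_ne_zero hD0)
          rw [map_mul, map_mul, map_pow, map_pow, ← hc', mul_pow]
          rw [← Nat.add_sub_cancel' hi', pow_add, Nat.add_sub_cancel_left]
          ring
      _ = 0 := by
          rw [show (∑ i ∈ Finset.range (d + 1),
            algebraMap L[X] (RatFunc L) ((r.coeff i).map e) * c ^ i) = 0 from hrc, zero_mul]
  -- away from a finite set of `k`, the value `c (e k)` is in the range of `e`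
  set bad : Set K₀ := {k | (r.leadingCoeff).eval k = 0 ∨ D.eval (e k) = 0} with hbad
  have hbadfin : bad.Finite := by
    refine Set.Finite.union (s := {k | (r.leadingCoeff).eval k = 0})
      (t := {k | D.eval (e k) = 0}) ?_ ?_
    · exact Polynomial.finite_setOfPred_isRoot (leadingCoeff_ne_zero.mpr hr)
    · exact (Polynomial.finite_setOfPred_isRoot hD0).preimage e.injective.injOn
  have hval : ∀ k ∉ bad, ∃ a : K₀, N.eval (e k) = e a * D.eval (e k) := by
    intro k hk
    simp only [hbad, Set.mem_ofPred_eq, not_or] at hk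
    let rk : K₀[X] := r.map (evalRingHom k)
    have hrk : rk = r.map (evalRingHom k) := rfl
    have hrk0 : rk ≠ 0 := fun h0 => hk.1 (by
      have h1 := congrArg (fun q => q.coeff r.natDegree) h0
      simp only [hrk, coeff_map, coe_evalRingHom, coeff_zero] at h1
      exact h1)
    have hroot : (rk.map e).eval (N.eval (e k) / D.eval (e k)) = 0 := by
      have h2 := congrArg (fun q => q.eval (e k)) hrel
      simp only [eval_finsetSum, eval_mul, eval_pow, eval_zero, eval_map_apply] at h2
      rw [eval_map, eval₂_eq_sum_range'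
        (n := d + 1) _ (Nat.lt_succ_of_le natDegree_map_le)]
      refine (mul_left_injective₀ (pow_ne_zero d hk.2)) ?_
      simp only [zero_mul, Finset.sum_mul]
      rw [← h2]
      refine Finset.sum_congr rfl fun i hi => ?_
      have hi' : i ≤ d := Nat.lt_succ_iff.mp (Finset.mem_range.mp hi)
      rw [coeff_map, coe_evalRingHom, div_pow]
      conv_lhs => rw [← Nat.sub_add_cancel hi', pow_add]
      field_simp [hk.2]
    have hmem : N.eval (e k) / D.eval (e k) ∈ (rk.map e).roots :=
      (mem_roots ((Polynomial.map_ne_zero_iff e.injective).mpr hrk0)).mpr hroot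
    rw [(IsAlgClosed.splits rk).roots_map e, Multiset.mem_map] at hmem
    obtain ⟨a, -, ha⟩ := hmem
    exact ⟨a, by rw [ha, div_mul_cancel₀ _ hk.2]⟩
  -- apply a linear functional to the coefficients
  letI : Algebra K₀ L := e.toAlgebra
  obtain ⟨ψ, hψ⟩ : ∃ ψ : L →ₗ[K₀] K₀, ψ D.leadingCoeff ≠ 0 := by
    by_contra hcon
    push Not at hcon
    exact leadingCoeff_ne_zero.mpr hD0 ((Module.forall_dual_apply_eq_zero_iff K₀ _).mp hcon)
  let red : L[X] → K₀[X] := fun p =>
    ∑ i ∈ Finset.range (p.natDegree + 1), monomial i (ψ (p.coeff i))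
  have hred : ∀ (p : L[X]) (k : K₀), (red p).eval k = ψ (p.eval (e k)) := by
    intro p k
    rw [eval_finsetSum, eval_eq_sum_range, map_sum]
    refine Finset.sum_congr rfl fun i _ => ?_
    rw [eval_monomial, show p.coeff i * e k ^ i = (k ^ i) • p.coeff i from by
      rw [Algebra.smul_def, map_pow]; exact mul_comm _ _, map_smul, smul_eq_mul, mul_comm]
  have hQ : red D ≠ 0 := fun h0 => hψ (by
    have h1 := congrArg (fun q => q.coeff D.natDegree) h0
    simp only [red, finsetSum_coeff, coeff_monomial, coeff_zero, Finset.sum_ite_eq',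
      Finset.mem_range, Nat.lt_succ_self, if_true] at h1
    exact h1)
  refine ⟨red N, red D, hQ, ?_⟩
  have hzero : N * (red D).map e - D * (red N).map e = 0 := by
    refine eq_zero_of_infinite_isRoot _ (Set.Infinite.mono ?_
      ((hbadfin.infinite_compl).image e.injective.injOn))
    rintro _ ⟨k, hk, rfl⟩
    obtain ⟨a, ha⟩ := hval k hk
    have h3 : (red N).eval k = a * (red D).eval k := by
      rw [hred, hred, ha, show e a * D.eval (e k) = a • D.eval (e k) from
        (Algebra.smul_def _ _).symm, map_smul, smul_eq_mul]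
    simp only [Set.mem_ofPred_eq, IsRoot.def, eval_sub, eval_mul, eval_map_apply, h3, ha, map_mul]
    ring
  conv_lhs => rw [← RatFunc.num_div_denom c]
  rw [div_mul_eq_mul_div, div_eq_iff (RatFunc.algebraMap_ne_zero hD0), ← map_mul, ← map_mul,
    mul_comm ((red N).map e)]
  exact congrArg _ (sub_eq_zero.mp hzero)

end FLTA.PicTorsion
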