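import Fermat.Agent.PicTorsion.Descent.Pres
import Fermat.Agent.PicTorsion.Descent.Fields
import Mathlib.RingTheory.AdjoinRoot
import Mathlib.RingTheory.Etale.Field
import Mathlib.RingTheory.Etale.Kaehler
import Mathlib.RingTheory.Kaehler.Polynomial
import Mathlib.RingTheory.Polynomial.GaussLemma
import Mathlib.FieldTheory.FinTrdeg
import Mathlib.FieldTheory.PrimitiveElement
import Mathlib.FieldTheory.IntermediateField.Adjoin.Algebra

/-!
# Existence, restriction and extension of plane presentations
-/

set_option autoImplicit false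
set_option linter.style.haveILetI false
set_option maxHeartbeats 400000

noncomputable section

open Polynomial AlgebraicCurve
open scoped TensorProduct

namespace FLTA.PicTorsion

section Trdeg

variable (K F : Type*) [Field K] [Field F] [Algebra K F]

/-- A finitely generated field of characteristic zero with `Ω` of rank one is finite over
`K(x)` for a transcendental `x`. -/
theorem exists_transcendental_finite [CharZero K] [IsCurveOver K F] [Algebra.EssFiniteType K F] :
    ∃ x : F, Transcendental K x ∧ Module.Finite (IntermediateField.adjoin K ({x} : Set F)) F := by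
  classical
  obtain ⟨s, hs⟩ := exists_finset_isTranscendenceBasis K F
  let P := MvPolynomial s K
  set E := IntermediateField.adjoin K (Set.range ((↑) : s → F))
  haveI : Algebra.IsAlgebraic E F := hs.isAlgebraic_field
  haveI : Algebra.EssFiniteType E F := Algebra.EssFiniteType.of_comp K E F
  haveI : Module.Finite E F := Algebra.finite_of_essFiniteType_of_isAlgebraic
  haveI : CharZero E := charZero_of_injective_algebraMap (algebraMap K E).injective
  haveI : Algebra.IsSeparable E F := Algebra.IsAlgebraic.isSeparable_of_perfectField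
  have hmem : ∀ f : P, MvPolynomial.aeval (fun a : s => (a : F)) f ∈ E := fun f =>
    IntermediateField.algebra_adjoin_le_adjoin K _
      (by rw [Algebra.adjoin_range_eq_range_aeval]; exact ⟨f, rfl⟩)
  letI : Algebra P E := ((MvPolynomial.aeval (fun a : s => (a : F))).toRingHom.codRestrict
    E.toSubalgebra.toSubring hmem).toAlgebra
  letI : Algebra P F := (MvPolynomial.aeval (fun a : s => (a : F))).toRingHom.toAlgebra
  haveI : IsScalarTower P E F := IsScalarTower.of_algebraMap_eq fun _ => rfl
  haveI : IsScalarTower K P F := IsScalarTower.of_algebraMap_eq fun a =>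
    ((MvPolynomial.aeval (fun a : s => (a : F))).commutes a).symm
  haveI : FaithfulSMul P E := (faithfulSMul_iff_algebraMap_injective P E).mpr fun a b hab =>
    hs.1 (congrArg Subtype.val hab : MvPolynomial.aeval (fun a : s => (a : F)) a = _)
  haveI : IsFractionRing P E := IsFractionRing.of_field P E fun z => by
    obtain ⟨r, hr, t, ht, hz⟩ := IntermediateField.mem_adjoin_iff_div.mp z.2
    rw [Algebra.adjoin_range_eq_range_aeval] at hr ht
    obtain ⟨f, rfl⟩ := hr
    obtain ⟨g, rfl⟩ := ht
    exact ⟨f, g, Subtype.ext hz⟩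
  haveI : Algebra.FormallyEtale P E :=
    Algebra.FormallyEtale.of_isLocalization (nonZeroDivisors P)
  haveI : Algebra.FormallyEtale E F := Algebra.FormallyEtale.of_isSeparable E F
  haveI : Algebra.FormallyEtale P F := Algebra.FormallyEtale.comp P E F
  have hcard : s.card = 1 := by
    have h1 := IsCurveOver.finrank_kaehler (K := K) (F := F)
    let b := (Algebra.TensorProduct.basis F (KaehlerDifferential.mvPolynomialBasis K s)).map
      (KaehlerDifferential.tensorKaehlerEquivOfFormallyEtale K P F)
    rw [Module.finrank_eq_card_basis b, Fintype.card_coe] at h1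
    exact h1
  obtain ⟨x, rfl⟩ := Finset.card_eq_one.mp hcard
  have hE : E = IntermediateField.adjoin K ({x} : Set F) := by
    show IntermediateField.adjoin K _ = _
    congr 1
    ext z
    simp
  refine ⟨x, ?_, hE ▸ inferInstance⟩
  exact (algebraicIndependent_singleton_iff
    (⟨x, Finset.mem_singleton_self x⟩ : ({x} : Finset F))).mp hs.1

/-- Every such field has a plane presentation. -/
theorem exists_isPres [CharZero K] [IsCurveOver K F] [Algebra.EssFiniteType K F] :
    ∃ (x y : F) (p : Polynomial (Polynomial K)) (n : ℕ), IsPres x y p n := by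
  classical
  obtain ⟨x, hx, hfin⟩ := exists_transcendental_finite K F
  set E := IntermediateField.adjoin K ({x} : Set F)
  haveI : Module.Finite E F := hfin
  haveI : CharZero E := charZero_of_injective_algebraMap (algebraMap K E).injective
  haveI : Algebra.IsSeparable E F := Algebra.IsAlgebraic.isSeparable_of_perfectField
  obtain ⟨y, hy⟩ := Field.exists_primitive_element E F
  have hint : IsIntegral E y := IsIntegral.of_finite E y
  set q := minpoly E y with hq
  set n := q.natDegree with hn
  have hc : ∀ j, ∃ r s : Polynomial K, Polynomial.aeval x s ≠ 0 ∧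
      (q.coeff j : F) * Polynomial.aeval x s = Polynomial.aeval x r := by
    intro j
    obtain ⟨r, s, hrs⟩ := (IntermediateField.mem_adjoin_simple_iff K _).mp (q.coeff j).2
    by_cases hs : Polynomial.aeval x s = 0
    · exact ⟨0, 1, by simp, by simp [hrs, hs]⟩
    · exact ⟨r, s, hs, by rw [hrs, div_mul_cancel₀ _ hs]⟩
  choose r s hs hrs using hc
  set S := Finset.range (n + 1)
  set a : ℕ → Polynomial K := fun j => r j * ∏ k ∈ S.erase j, s k with ha
  set p : Polynomial (Polynomial K) := ∑ j ∈ S, monomial j (a j) with hp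
  have hcoef : ∀ j ∈ S, Polynomial.aeval x (a j) =
      (q.coeff j : F) * Polynomial.aeval x (∏ k ∈ S, s k) := by
    intro j hj
    rw [ha, map_mul, ← hrs j, ← Finset.mul_prod_erase S s hj, map_mul, mul_assoc]
  have hpcoef : ∀ j, p.coeff j = if j ∈ S then a j else 0 := by
    intro j
    rw [hp, finsetSum_coeff]
    simp [coeff_monomial]
  have hprod : Polynomial.aeval x (∏ k ∈ S, s k) ≠ 0 := by
    rw [map_prod]; exact Finset.prod_ne_zero_iff.mpr fun k _ => hs k
  have hnS : n ∈ S := Finset.mem_range.mpr (Nat.lt_succ_self n)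
  have hdeg : p.natDegree = n := by
    refine natDegree_eq_of_le_of_coeff_ne_zero ?_ ?_
    · refine natDegree_le_iff_coeff_eq_zero.mpr fun j hj => ?_
      rw [hpcoef, if_neg (by simp [S]; omega)]
    · rw [hpcoef, if_pos hnS]
      intro h0
      have h1 := hcoef n hnS
      rw [h0, map_zero, hn, coeff_natDegree, (minpoly.monic hint).leadingCoeff] at h1
      exact hprod (by simpa using h1.symm)
  refine ⟨x, y, p, n, hdeg, minpoly.natDegree_pos hint, ?_, ?_, ?_⟩
  · calc evalPair x y p = ∑ j ∈ S, Polynomial.aeval x (a j) * y ^ j := by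
          rw [hp, evalPair_apply, eval₂_finsetSum]
          exact Finset.sum_congr rfl fun j _ => by rw [eval₂_monomial]; rfl
      _ = (∑ j ∈ S, (q.coeff j : F) * y ^ j) * Polynomial.aeval x (∏ k ∈ S, s k) := by
          rw [Finset.sum_mul]
          exact Finset.sum_congr rfl fun j hj => by rw [hcoef j hj]; ring
      _ = 0 := by
          have h0 := minpoly.aeval E y
          rw [aeval_eq_sum_range] at h0
          rw [show (∑ j ∈ S, (q.coeff j : F) * y ^ j) = 0 from h0, zero_mul]
  · exact linearIndependent_pow_mul hx (linearIndependent_pow (K := E) y)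
  · rw [← IntermediateField.adjoin_simple_adjoin_simple, hy, IntermediateField.restrictScalars_top]

end Trdeg

section Restrict

variable {K F : Type*} [Field K] [Field F] [Algebra K F]

/-- A presentation defined over a subfield `k` gives a presentation of `k(x, y)`, of which `F`
is the base change. -/
theorem IsPres.restrict {x y : F} {p : Polynomial (Polynomial K)} {n : ℕ}
    (h : IsPres x y p n) (k : Subfield K) {p₀ : Polynomial (Polynomial k)}
    (hp : p₀.map (mapRingHom k.subtype) = p) :
    ∃ x₀ y₀ : IntermediateField.adjoin k ({x, y} : Set F),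
      IsPres x₀ y₀ p₀ n ∧ (x₀ : F) = x ∧ (y₀ : F) = y := by
  set F₀ := IntermediateField.adjoin k ({x, y} : Set F)
  let x₀ : F₀ := ⟨x, IntermediateField.subset_adjoin _ _ (Set.mem_insert _ _)⟩
  let y₀ : F₀ := ⟨y, IntermediateField.subset_adjoin _ _ (Set.mem_insert_of_mem _ rfl)⟩
  refine ⟨x₀, y₀, ⟨?_, h.pos, ?_, ?_, ?_⟩, rfl, rfl⟩
  · rw [← h.natDegree_eq, ← hp,
      natDegree_map_eq_of_injective (map_injective _ k.subtype.injective)]
  · apply F₀.val.toRingHom.injective
    rw [map_zero, evalPair_map k.subtype F₀.val.toRingHom (fun _ => rfl), hp]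
    exact h.root
  · refine LinearIndependent.of_comp F₀.val.toLinearMap ?_
    have h1 := h.linearIndependent.restrict_scalars (R := k) (fun a b hab => by
      simpa [Subfield.smul_def] using hab)
    simpa [Function.comp_def, x₀, y₀] using h1
  · refine IntermediateField.lift_injective F₀ ?_
    rw [IntermediateField.lift_adjoin, IntermediateField.lift_top, Set.image_pair]

/-- The coefficients of a bivariate polynomial. -/
def coeffSet (p : Polynomial (Polynomial K)) : Set K :=
  Set.range fun ij : ℕ × ℕ => (p.coeff ij.1).coeff ij.2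

theorem countable_coeffSet (p : Polynomial (Polynomial K)) : (coeffSet p).Countable :=
  Set.countable_range _

theorem exists_map_eq_of_coeffSet_subset {p : Polynomial (Polynomial K)} {k : Subfield K}
    (h : coeffSet p ⊆ k) :
    ∃ p₀ : Polynomial (Polynomial k), p₀.map (mapRingHom k.subtype) = p := by
  refine (mem_lifts p).mp ((lifts_iff_coeff_lifts p).mpr fun i => ?_)
  obtain ⟨q, hq⟩ := (mem_lifts (f := k.subtype) (p.coeff i)).mp
    ((lifts_iff_coeff_lifts _).mpr fun j => ⟨⟨_, h ⟨(i, j), rfl⟩⟩, rfl⟩)
  exact ⟨q, hq⟩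

end Restrict

section Extend

variable {K₀ F₀ : Type*} [Field K₀] [Field F₀] [Algebra K₀ F₀] [IsAlgClosed K₀] [CharZero K₀]

/-- A presentation over an algebraically closed field extends along any embedding of constants. -/
theorem IsPres.exists_model {x y : F₀} {p : Polynomial (Polynomial K₀)} {n : ℕ}
    (h : IsPres x y p n) {L : Type} [Field L] (e : K₀ →+* L) :
    ∃ (FL : Type) (_ : Field FL) (_ : Algebra L FL) (x' y' : FL),
      IsPres x' y' (p.map (mapRingHom e)) n := by
  classical
  set g : Polynomial K₀ →+* RatFunc L :=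
    (algebraMap (Polynomial L) (RatFunc L)).comp (mapRingHom e) with hg
  have hginj : Function.Injective g :=
    (RatFunc.algebraMap_injective L).comp (map_injective e e.injective)
  set ι : RatFunc K₀ →+* RatFunc L := IsFractionRing.lift hginj
  have hι : ∀ f, ι (algebraMap (Polynomial K₀) (RatFunc K₀) f) = g f := fun f =>
    IsFractionRing.lift_algebraMap hginj f
  have haev : Function.Injective ⇑(Polynomial.aeval (R := K₀) x).toRingHom :=
    transcendental_iff_injective.mp h.transcendental
  set j : RatFunc K₀ →+* F₀ := IsFractionRing.lift haev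
  have hj : ∀ f, j (algebraMap (Polynomial K₀) (RatFunc K₀) f) = Polynomial.aeval x f := fun f =>
    IsFractionRing.lift_algebraMap _ f
  -- the monic version of `p` over `K₀(X)`
  set P₁ := p.map (algebraMap (Polynomial K₀) (RatFunc K₀)) with hP₁
  have hp0 : p ≠ 0 := by
    rintro rfl
    exact h.pos.ne (by simpa using h.natDegree_eq)
  have hP₁0 : P₁ ≠ 0 := (Polynomial.map_ne_zero_iff (RatFunc.algebraMap_injective K₀)).mpr hp0
  set q₀ := P₁ * C P₁.leadingCoeff⁻¹ with hq₀
  have hq₀monic : q₀.Monic := monic_mul_leadingCoeff_inv hP₁0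
  have hq₀deg : q₀.natDegree = n := by
    rw [hq₀, natDegree_mul_C (inv_ne_zero (leadingCoeff_ne_zero.mpr hP₁0)),
      natDegree_map_eq_of_injective (RatFunc.algebraMap_injective K₀), h.natDegree_eq]
  have hroot : (q₀.map j).eval y = 0 := by
    rw [hq₀, Polynomial.map_mul, eval_mul, hP₁, Polynomial.map_map, eval_map]
    have : j.comp (algebraMap (Polynomial K₀) (RatFunc K₀)) = (Polynomial.aeval x).toRingHom :=
      RingHom.ext hj
    rw [this, ← evalPair_apply, h.root, zero_mul]
  -- no polynomial of smaller degree over `K₀(X)` kills `y`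
  have hmin : ∀ f : Polynomial (RatFunc K₀), f.natDegree < n → (f.map j).eval y = 0 → f = 0 := by
    intro f hf h0
    have hjmem : ∀ z, j z ∈ IntermediateField.adjoin K₀ ({x} : Set F₀) := by
      intro z
      obtain ⟨a, b, hb, rfl⟩ := IsFractionRing.div_surjective (Polynomial K₀) z
      rw [map_div₀, hj, hj]
      exact div_mem (IntermediateField.algebra_adjoin_le_adjoin K₀ _
        (aeval_mem_adjoin_singleton K₀ x)) (IntermediateField.algebra_adjoin_le_adjoin K₀ _
        (aeval_mem_adjoin_singleton K₀ x))
    have hli : LinearIndependent (IntermediateField.adjoin K₀ ({x} : Set F₀))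
        (fun i : Fin n => y ^ (i : ℕ)) :=
      linearIndependent_adjoin_simple (b := fun i : Fin n => y ^ (i : ℕ)) h.linearIndependent
    let c : Fin n → IntermediateField.adjoin K₀ ({x} : Set F₀) := fun i => ⟨j (f.coeff i), hjmem _⟩
    have hsum : ∑ i : Fin n, c i • y ^ (i : ℕ) = 0 := by
      rw [← h0, eval_map, eval₂_eq_sum_range' _ hf, Finset.sum_range]
      exact Finset.sum_congr rfl fun i _ => IntermediateField.smul_def _ _
    have h1 := linearIndependent_iff'.mp hli Finset.univ c hsum
    ext i : 1
    rw [coeff_zero]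
    by_cases hi : i < n
    · exact j.injective (by
        rw [map_zero]
        exact congrArg Subtype.val (h1 ⟨i, hi⟩ (Finset.mem_univ _)))
    · exact coeff_eq_zero_of_natDegree_lt (lt_of_lt_of_le hf (not_lt.mp hi))
  set q := q₀.map ι with hq
  have hqmonic : q.Monic := hq₀monic.map ι
  have hqdeg : q.natDegree = n := by
    rw [hq, natDegree_map_eq_of_injective ι.injective, hq₀deg]
  have hirr : Irreducible q := by
    have hq1 : q ≠ 1 := by
      intro h1
      rw [h1, natDegree_one] at hqdeg
      exact h.pos.ne hqdeg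
    rw [hqmonic.irreducible_iff_natDegree, and_iff_right hq1]
    intro f f' hf hf' hff'
    letI : Algebra (RatFunc K₀) (RatFunc L) := ι.toAlgebra
    letI : Algebra (Polynomial K₀) (RatFunc L) := g.toAlgebra
    haveI : IsScalarTower (Polynomial K₀) (RatFunc K₀) (RatFunc L) :=
      IsScalarTower.of_algebraMap_eq fun f => (hι f).symm
    have hlift := integralClosure.mem_lifts_of_monic_of_dvd_map (RatFunc L) hq₀monic hf
      (hq ▸ Dvd.intro f' hff')
    have hcoef : ∀ i, ∃ z, ι z = f.coeff i := by
      intro i
      obtain ⟨⟨c, hc⟩, hci⟩ := (lifts_iff_coeff_lifts f).mp hlift i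
      have hc' : IsAlgebraic (RatFunc K₀) c := hc.isAlgebraic
      rw [← IsFractionRing.isAlgebraic_iff (Polynomial K₀) (RatFunc K₀)] at hc'
      obtain ⟨r, hr, hrc⟩ := hc'
      obtain ⟨A, B, hB, hAB⟩ := mem_range_map_of_isAlgebraic e (c := c) ⟨r, hr, by
        rw [eval_map, ← hrc, aeval_def]
        rfl⟩
      have hB' : (algebraMap (Polynomial K₀) (RatFunc K₀) B) ≠ 0 :=
        RatFunc.algebraMap_ne_zero hB
      refine ⟨algebraMap _ _ A / algebraMap _ _ B, ?_⟩
      rw [map_div₀, hι, hι, div_eq_iff (fun h0 => hB (hginj (h0.trans (map_zero g).symm))),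
        ← show c = f.coeff i from hci]
      exact hAB.symm
    obtain ⟨f₀, hf₀, -, hf₀m⟩ := lifts_and_degree_eq_and_monic
      ((lifts_iff_coeff_lifts f).mpr fun i => hcoef i) hf
    obtain ⟨f₁, hf₁⟩ : f₀ ∣ q₀ := (Polynomial.map_dvd_map ι ι.injective hf₀m).mp
      (hf₀ ▸ hq ▸ Dvd.intro f' hff')
    have hf₁0 : f₁ ≠ 0 := fun h0 => hq₀monic.ne_zero (by rw [hf₁, h0, mul_zero])
    have hdeg : f₀.natDegree + f₁.natDegree = n := by
      rw [← hq₀deg, hf₁, natDegree_mul hf₀m.ne_zero hf₁0]
    have hfdeg : f.natDegree = f₀.natDegree := by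
      rw [← hf₀, natDegree_map_eq_of_injective ι.injective]
    have hsumdeg : f.natDegree + f'.natDegree = n := by
      rw [← natDegree_mul hf.ne_zero hf'.ne_zero, hff', hqdeg]
    rw [hf₁, Polynomial.map_mul, eval_mul, mul_eq_zero] at hroot
    rcases hroot with h0 | h0
    · rcases lt_or_ge f₀.natDegree n with hlt | hge
      · exact absurd (hmin f₀ hlt h0) hf₀m.ne_zero
      · exact Or.inr (by omega)
    · rcases lt_or_ge f₁.natDegree n with hlt | hge
      · exact absurd (hmin f₁ hlt h0) hf₁0
      · exact Or.inl (by omega)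
  haveI : Fact (Irreducible q) := ⟨hirr⟩
  refine ⟨AdjoinRoot q, inferInstance, inferInstance,
    algebraMap (RatFunc L) (AdjoinRoot q) RatFunc.X, AdjoinRoot.root q, ?_, h.pos, ?_, ?_, ?_⟩
  · rw [natDegree_map_eq_of_injective (map_injective e e.injective), h.natDegree_eq]
  · have hev : (Polynomial.aeval (algebraMap (RatFunc L) (AdjoinRoot q) RatFunc.X)).toRingHom =
        (algebraMap (RatFunc L) (AdjoinRoot q)).comp (algebraMap (Polynomial L) (RatFunc L)) := by
      refine Polynomial.ringHom_ext (fun a => ?_) ?_
      · simp [IsScalarTower.algebraMap_apply L (RatFunc L) (AdjoinRoot q),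
          RatFunc.algebraMap_eq_C]
      · simp
    rw [evalPair_apply, hev, eval₂_map]
    have hP : p.map g = q * C (ι P₁.leadingCoeff) := by
      rw [hq, ← map_C, ← Polynomial.map_mul, hq₀, mul_assoc, ← C_mul,
        inv_mul_cancel₀ (leadingCoeff_ne_zero.mpr hP₁0), C_1, mul_one, hP₁, Polynomial.map_map]
      congr 1
      exact (RingHom.ext hι).symm
    calc p.eval₂ (((algebraMap (RatFunc L) (AdjoinRoot q)).comp
          (algebraMap (Polynomial L) (RatFunc L))).comp (mapRingHom e)) (AdjoinRoot.root q)
        = (p.map g).eval₂ (algebraMap (RatFunc L) (AdjoinRoot q)) (AdjoinRoot.root q) := by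
          rw [eval₂_map]; rfl
      _ = 0 := by
          rw [hP, eval₂_mul, AdjoinRoot.algebraMap_eq, AdjoinRoot.eval₂_root, zero_mul]
  · have hb : LinearIndependent (RatFunc L) (fun i : Fin n => AdjoinRoot.root q ^ (i : ℕ)) := by
      have h1 := (AdjoinRoot.powerBasis hqmonic.ne_zero).basis.linearIndependent
      simpa [Function.comp_def] using h1.comp (Fin.cast hqdeg.symm) (Fin.cast_injective _)
    have hX : LinearIndependent L fun i : ℕ => (RatFunc.X : RatFunc L) ^ i := by
      have h2 := (Polynomial.basisMonomials L).linearIndependent.map'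
        (IsScalarTower.toAlgHom L (Polynomial L) (RatFunc L)).toLinearMap
        (LinearMap.ker_eq_bot.mpr (RatFunc.algebraMap_injective L))
      simpa [Function.comp_def] using h2
    simpa [Algebra.smul_def] using linearIndependent_smul hX hb
  · rw [eq_top_iff]
    rintro z -
    obtain ⟨w, rfl⟩ := AdjoinRoot.mk_surjective z
    set M := IntermediateField.adjoin L
      ({algebraMap (RatFunc L) (AdjoinRoot q) RatFunc.X, AdjoinRoot.root q} : Set (AdjoinRoot q))
    have hpoly : ∀ a : Polynomial L,
        algebraMap (RatFunc L) (AdjoinRoot q) (algebraMap (Polynomial L) (RatFunc L) a) ∈ M := by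
      intro a
      induction a using Polynomial.induction_on with
      | C a =>
        rw [RatFunc.algebraMap_C, ← RatFunc.algebraMap_eq_C, ← IsScalarTower.algebraMap_apply]
        exact M.algebraMap_mem a
      | add u v hu hv => rw [map_add, map_add]; exact add_mem hu hv
      | monomial k a _ =>
        rw [map_mul, map_mul, map_pow, map_pow, RatFunc.algebraMap_X, RatFunc.algebraMap_C,
          ← RatFunc.algebraMap_eq_C, ← IsScalarTower.algebraMap_apply]
        exact mul_mem (M.algebraMap_mem a)
          (pow_mem (IntermediateField.subset_adjoin _ _ (Set.mem_insert _ _)) _)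
    induction w using Polynomial.induction_on with
    | C a =>
      rw [AdjoinRoot.mk_C, ← AdjoinRoot.algebraMap_eq, ← RatFunc.num_div_denom a, map_div₀]
      exact div_mem (hpoly _) (hpoly _)
    | add u v hu hv => rw [map_add]; exact add_mem hu hv
    | monomial k a ha =>
      rw [pow_succ, ← mul_assoc, map_mul, AdjoinRoot.mk_X]
      exact mul_mem ha (IntermediateField.subset_adjoin _ _ (Set.mem_insert_of_mem _ rfl))

end Extend

end FLTA.PicTorsion
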