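import Fermat.Prelude.Def_AlgebraicCurve_IsCurveOver
import Mathlib.FieldTheory.IntermediateField.Adjoin.Basic
import Mathlib.RingTheory.AlgebraTower
import Mathlib.LinearAlgebra.Dimension.Finrank
import Mathlib.Algebra.Polynomial.Basis
import Mathlib.LinearAlgebra.Matrix.ToLin

/-!
# Base change of function fields along an embedding of constant fields

`IsBaseChange e φ`: `F` is the fraction field of `F₀ ⊗ K` (via `e : K₀ →+* K`, `φ : F₀ →+* F`).
-/

set_option autoImplicit false

noncomputable section

namespace FLTA.PicTorsion

variable {K₀ F₀ K F : Type*} [Field K₀] [Field F₀] [Algebra K₀ F₀] [Field K] [Field F]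
  [Algebra K F]

/-- `φ` exhibits `F` as the extension of constants of `F₀` along `e`. -/
structure IsBaseChange (e : K₀ →+* K) (φ : F₀ →+* F) : Prop where
  comm : ∀ a, φ (algebraMap K₀ F₀ a) = algebraMap K F (e a)
  linearIndependent : ∀ {n : ℕ} (v : Fin n → F₀), LinearIndependent K₀ v →
    LinearIndependent K (φ ∘ v)
  adjoin_range : IntermediateField.adjoin K (Set.range φ) = ⊤

/-- Linear independence over a subfield of vectors in `S → K₀` survives extension of scalars. -/
theorem linearIndependent_map_pi {ι S : Type*} [Finite ι] [Fintype S] (e : K₀ →+* K)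
    {v : ι → S → K₀} (hv : LinearIndependent K₀ v) :
    LinearIndependent K fun i s => e (v i s) := by
  classical
  cases nonempty_fintype ι
  obtain ⟨G, hG⟩ := (Fintype.linearCombination K₀ v).exists_leftInverse_of_injective
    (LinearMap.ker_eq_bot.mpr hv.fintypeLinearCombination_injective)
  set M : Matrix ι S K₀ := LinearMap.toMatrix' G with hM
  have hMv : ∀ i j, ∑ s, M j s * v i s = if j = i then 1 else 0 := by
    intro i j
    have h := congrArg (fun w => w j) (LinearMap.congr_fun hG (Pi.single i 1))
    simp only [LinearMap.comp_apply, Fintype.linearCombination_apply_single, one_smul,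
      LinearMap.id_apply] at h
    rw [← LinearMap.toMatrix'_mulVec (R := K₀) G] at h
    simpa [hM, Matrix.mulVec, dotProduct, Pi.single_apply] using h
  rw [Fintype.linearIndependent_iff]
  intro c hc j
  have h := congrArg (fun w : S → K => ∑ s, e (M j s) * w s) hc
  simp only [Pi.zero_apply, mul_zero, Finset.sum_const_zero, Finset.sum_apply, Pi.smul_apply,
    smul_eq_mul, Finset.mul_sum] at h
  rw [Finset.sum_comm] at h
  rw [← h]
  calc c j = ∑ i, c i * e (if j = i then 1 else 0) := by simp
    _ = _ := Finset.sum_congr rfl fun i _ => by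
      rw [← hMv i j, map_sum, Finset.mul_sum]
      exact Finset.sum_congr rfl fun s _ => by rw [map_mul]; ring

/-- If the products `x ^ i * b j` are linearly independent over `K`, then the `b j` are linearly
independent over `K(x)`. -/
theorem linearIndependent_adjoin_simple {ι : Type*} {x : F} {b : ι → F}
    (h : LinearIndependent K fun ij : ℕ × ι => x ^ ij.1 * b ij.2) :
    LinearIndependent (IntermediateField.adjoin K {x}) b := by
  classical
  rw [linearIndependent_iff']
  intro s c hc j hj
  have hc' : ∀ i, ∃ r q : Polynomial K, Polynomial.aeval x q ≠ 0 ∧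
      (c i : F) * Polynomial.aeval x q = Polynomial.aeval x r := by
    intro i
    obtain ⟨r, q, hrq⟩ := (IntermediateField.mem_adjoin_simple_iff K _).mp (c i).2
    by_cases hq : Polynomial.aeval x q = 0
    · exact ⟨0, 1, by simp, by simp [hrq, hq]⟩
    · exact ⟨r, q, hq, by rw [hrq, div_mul_cancel₀ _ hq]⟩
  choose r q hq hrq using hc'
  set R : ι → Polynomial K := fun i => r i * ∏ k ∈ s.erase i, q k with hR
  have hsum : ∑ i ∈ s, Polynomial.aeval x (R i) * b i = 0 := by
    have h0 : ∑ i ∈ s, (c i : F) * b i = 0 := by
      simpa [IntermediateField.smul_def] using hc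
    calc _ = (∑ i ∈ s, (c i : F) * b i) * Polynomial.aeval x (∏ k ∈ s, q k) := by
          rw [Finset.sum_mul]
          refine Finset.sum_congr rfl fun i hi => ?_
          simp only [hR]
          rw [← Finset.mul_prod_erase s q hi, map_mul, map_mul, ← hrq i]
          ring
      _ = 0 := by rw [h0, zero_mul]
  -- expand in the independent family
  set N := (s.sup fun i => (R i).natDegree) + 1
  have hexp : ∑ ij ∈ Finset.range N ×ˢ s, (R ij.2).coeff ij.1 • (x ^ ij.1 * b ij.2) = 0 := by
    rw [Finset.sum_product_right, ← hsum]
    refine Finset.sum_congr rfl fun i hi => ?_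
    rw [Polynomial.aeval_eq_sum_range' (n := N) (Nat.lt_succ_of_le
      (Finset.le_sup (f := fun i => (R i).natDegree) hi)), Finset.sum_mul]
    exact Finset.sum_congr rfl fun k _ => (smul_mul_assoc _ _ _).symm
  have hcoef := linearIndependent_iff'.mp h _ _ hexp
  have hRj : R j = 0 := by
    ext k
    by_cases hk : k < N
    · simpa using hcoef (k, j) (Finset.mem_product.mpr ⟨Finset.mem_range.mpr hk, hj⟩)
    · rw [Polynomial.coeff_zero]
      exact Polynomial.coeff_eq_zero_of_natDegree_lt (lt_of_lt_of_le (Nat.lt_succ_of_le
        (Finset.le_sup (f := fun i => (R i).natDegree) hj)) (not_lt.mp hk))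
  have h0 : Polynomial.aeval x (r j) * Polynomial.aeval x (∏ k ∈ s.erase j, q k) = 0 := by
    rw [← map_mul]
    rw [hR] at hRj
    simp [hRj]
  have hprod : Polynomial.aeval x (∏ k ∈ s.erase j, q k) ≠ 0 := by
    rw [map_prod]
    exact Finset.prod_ne_zero_iff.mpr fun k _ => hq k
  have h1 : (c j : F) * Polynomial.aeval x (q j) = 0 := by
    rw [hrq j]; exact (mul_eq_zero.mp h0).resolve_right hprod
  exact Subtype.ext ((mul_eq_zero.mp h1).resolve_right (hq j))

/-- Conversely, linear independence over `K(x)` gives that of the products with powers of a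
transcendental `x`. -/
theorem linearIndependent_pow_mul {ι : Type*} {x : F} (hx : Transcendental K x) {b : ι → F}
    (h : LinearIndependent (IntermediateField.adjoin K {x}) b) :
    LinearIndependent K fun ij : ℕ × ι => x ^ ij.1 * b ij.2 := by
  set x' : IntermediateField.adjoin K {x} :=
    ⟨x, IntermediateField.mem_adjoin_simple_self K x⟩
  have h1 : LinearIndependent K fun i : ℕ => x' ^ i := by
    have h2 : LinearIndependent K fun i : ℕ => x ^ i := by
      have h3 := (Polynomial.basisMonomials K).linearIndependent.map'
        (Polynomial.aeval x).toLinearMap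
        (LinearMap.ker_eq_bot.mpr (transcendental_iff_injective.mp hx))
      simpa [Function.comp_def] using h3
    exact LinearIndependent.of_comp (IntermediateField.val _).toLinearMap h2
  exact linearIndependent_smul h1 h

end FLTA.PicTorsion
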