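import Fermat.Agent.PicTorsion.Descent.Trace
import Fermat.Agent.Curves.RRBaseChange

/-!
# `Pic⁰` under base change of constants

`L(D)` base changes, the genus is invariant, `Pic⁰(F₀) → Pic⁰(F)` is injective and a class
supported on places over `F₀` comes from `Pic⁰(F₀)`.
-/

set_option autoImplicit false
set_option linter.style.haveILetI false
set_option linter.unusedSectionVars false
set_option maxHeartbeats 400000

noncomputable section

open AlgebraicCurve WithZero

namespace FLTA.PicTorsion

variable {K₀ F₀ K F : Type*} [Field K₀] [Field F₀] [Algebra K₀ F₀] [Field K] [Field F]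
  [Algebra K F] {e : K₀ →+* K} {φ : F₀ →+* F}
variable [IsAlgClosed K₀] [IsAlgClosed K] [CharZero K₀] [CharZero K]
  [Curves.IsSepFunctionField K₀ F₀] [Curves.IsSepFunctionField K F]

/-- Divisors pushed to the base change. -/
def IsBaseChange.pushDiv (hb : IsBaseChange e φ) : Divisor K₀ F₀ →+ Divisor K F :=
  Finsupp.mapDomain.addMonoidHom hb.placeMap

theorem IsBaseChange.pushDiv_apply (hb : IsBaseChange e φ) (D : Divisor K₀ F₀) (v : Place K₀ F₀) :
    hb.pushDiv D (hb.placeMap v) = D v :=
  Finsupp.mapDomain_apply hb.placeMap_injective D v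

theorem IsBaseChange.pushDiv_apply_of_notMem (hb : IsBaseChange e φ) (D : Divisor K₀ F₀)
    {w : Place K F} (hw : w ∉ Set.range hb.placeMap) : hb.pushDiv D w = 0 :=
  Finsupp.mapDomain_notin_range D w hw

theorem IsBaseChange.degree_pushDiv (hb : IsBaseChange e φ) (D : Divisor K₀ F₀) :
    Divisor.degree (hb.pushDiv D) = Divisor.degree D := by
  rw [Curves.degree_eq_sum, Curves.degree_eq_sum]
  exact Finsupp.sum_mapDomain_index (fun _ => rfl) (fun _ _ _ => rfl)

theorem IsBaseChange.pushDiv_injective (hb : IsBaseChange e φ) : Function.Injective hb.pushDiv :=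
  Finsupp.mapDomain_injective hb.placeMap_injective

theorem IsBaseChange.riemannRochSpace_pushDiv (hb : IsBaseChange e φ) (D : Divisor K₀ F₀) :
    riemannRochSpace (hb.pushDiv D) = Submodule.span K (φ '' riemannRochSpace D) ∧
      Curves.ell (hb.pushDiv D) = Curves.ell D := by
  classical
  letI : Algebra K₀ K := e.toAlgebra
  letI : Algebra K₀ F := ((algebraMap K F).comp e).toAlgebra
  haveI : IsScalarTower K₀ K F := IsScalarTower.of_algebraMap_eq fun _ => rfl
  let ι : F₀ →ₐ[K₀] F := { φ with commutes' := hb.comm }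
  have key : riemannRochSpace (hb.pushDiv D) = Submodule.span K (φ '' riemannRochSpace D) := by
    apply le_antisymm
    · intro f hf
      have hS : f ∈ Submodule.span K (Set.range φ) := by
        refine hb.mem_span_range_of_poles fun w hw => ?_
        by_contra hr
        have h0 : f ≠ 0 := by rintro rfl; simp at hw
        have := (mem_riemannRochSpace_iff.mp hf w).resolve_left h0
        rw [hb.pushDiv_apply_of_notMem D hr] at this
        omega
      obtain ⟨E, hE⟩ := Curves.exists_mem_span_image_riemannRochSpace ι hS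
      let W : Place K₀ F₀ → ℤ → Submodule K F := fun v n =>
        { carrier := {z | (hb.placeMap v).adicValuation z ≤ exp (-n)}
          zero_mem' := by simp
          add_mem' := fun {a b} ha hb' =>
            le_trans ((hb.placeMap v).adicValuation.map_add a b) (max_le ha hb')
          smul_mem' := fun c z hz => by
            show (hb.placeMap v).adicValuation (c • z) ≤ _
            rw [Algebra.smul_def, map_mul]
            exact (mul_le_of_le_one_left'
              ((hb.placeMap v).adicValuation_algebraMap_le_one c)).trans hz }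
      refine Curves.mem_span_image_riemannRochSpace (C := K) ι.toLinearMap W ?_ ?_ ?_
        (E := E) hE ?_
      · intro v a b hab z hz
        exact le_trans hz (exp_le_exp.mpr (by omega))
      · intro v g hg
        show (hb.placeMap v).adicValuation (φ g) ≤ exp (-v.ord g)
        rw [(hb.placeMap v).adicValuation_eq_exp_neg_ord (by simpa using hg), hb.ord_placeMap]
      · intro v g hg h
        have h' : (hb.placeMap v).adicValuation (φ g) ≤ exp (-(v.ord g + 1)) := h
        rw [(hb.placeMap v).adicValuation_eq_exp_neg_ord (by simpa using hg), hb.ord_placeMap,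
          exp_le_exp] at h'
        omega
      · intro v
        show (hb.placeMap v).adicValuation f ≤ exp (-(-D v))
        rw [neg_neg, ← hb.pushDiv_apply D v]
        exact hf _
    · rw [Submodule.span_le]
      rintro _ ⟨g, hg, rfl⟩
      rw [SetLike.mem_coe, mem_riemannRochSpace_iff]
      intro w
      rcases eq_or_ne g 0 with rfl | hg0
      · exact Or.inl (map_zero φ)
      refine Or.inr ?_
      by_cases hw : w ∈ Set.range hb.placeMap
      · obtain ⟨v, rfl⟩ := hw
        rw [hb.pushDiv_apply, hb.ord_placeMap]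
        exact (mem_riemannRochSpace_iff.mp hg v).resolve_left hg0
      · rw [hb.pushDiv_apply_of_notMem D hw, neg_zero]
        exact (not_ne_iff.mp fun h => hw (hb.mem_range_placeMap h)).ge
  refine ⟨key, ?_⟩
  rw [Curves.ell, key]
  exact Curves.finrank_span_image_riemannRochSpace (C := K) ι.toLinearMap
    (fun n f hf => hb.linearIndependent f hf) D

theorem IsBaseChange.ell_pushDiv (hb : IsBaseChange e φ) (D : Divisor K₀ F₀) :
    Curves.ell (hb.pushDiv D) = Curves.ell D :=
  (hb.riemannRochSpace_pushDiv D).2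

theorem IsBaseChange.genusFF_eq (hb : IsBaseChange e φ) : genusFF K F = genusFF K₀ F₀ := by
  obtain ⟨v⟩ := Curves.IsFunctionField.exists_place (K := K₀) (F := F₀)
  set N : ℕ := 2 * genusFF K F + 2 * genusFF K₀ F₀ + 1
  have hdeg : Divisor.degree (Finsupp.single v (N : ℤ)) = N := by
    rw [Divisor.degree_single, IsCurveOver.deg_eq_one_of_isAlgClosed, Nat.cast_one, mul_one]
  have h0 := Curves.ell_eq_of_two_mul_genusFF_sub_two_lt
    (show 2 * (genusFF K₀ F₀ : ℤ) - 2 < Divisor.degree (Finsupp.single v (N : ℤ)) by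
      rw [hdeg]; omega)
  have h1 := Curves.ell_eq_of_two_mul_genusFF_sub_two_lt
    (show 2 * (genusFF K F : ℤ) - 2 < Divisor.degree (hb.pushDiv (Finsupp.single v (N : ℤ))) by
      rw [hb.degree_pushDiv, hdeg]; omega)
  rw [hb.ell_pushDiv, hb.degree_pushDiv, h0] at h1
  omega

theorem IsBaseChange.pushDiv_mem_principal_iff (hb : IsBaseChange e φ) {D : Divisor K₀ F₀}
    (hD : Divisor.degree D = 0) :
    hb.pushDiv D ∈ Divisor.principal ↔ D ∈ Divisor.principal := by
  constructor
  · rintro ⟨f, hf0, hf⟩
    have hmem : f ∈ riemannRochSpace (hb.pushDiv (-D)) := by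
      rw [mem_riemannRochSpace_iff]
      intro w
      refine Or.inr ?_
      rw [map_neg, Finsupp.neg_apply, neg_neg, hf w]
    have hne : riemannRochSpace (-D) ≠ ⊥ := by
      intro h0
      rw [(hb.riemannRochSpace_pushDiv (-D)).1, h0] at hmem
      exact hf0 (by simpa using hmem)
    obtain ⟨g, hg, hg0⟩ := Submodule.exists_mem_ne_zero_of_ne_bot hne
    refine ⟨g, hg0, fun v => ?_⟩
    have hle : 0 ≤ Curves.divFn g + -D :=
      (Curves.mem_riemannRochSpace_iff_add_nonneg hg0).mp hg
    have hdeg : Divisor.degree (Curves.divFn g + -D) = 0 := by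
      rw [map_add, Curves.degree_divFn, map_neg, hD]; simp
    rw [Curves.degree_eq_sum, Finsupp.sum,
      Finset.sum_eq_zero_iff_of_nonneg fun u _ => Finsupp.le_def.mp hle u] at hdeg
    have hv : (Curves.divFn g + -D : Divisor K₀ F₀) v = 0 := by
      by_contra h
      exact h (hdeg v (Finsupp.mem_support_iff.mpr h))
    rw [Finsupp.add_apply, Finsupp.neg_apply, Curves.divFn_apply] at hv
    omega
  · rintro ⟨g, hg0, hg⟩
    refine ⟨φ g, by simpa using hg0, fun w => ?_⟩
    by_cases hw : w ∈ Set.range hb.placeMap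
    · obtain ⟨v, rfl⟩ := hw
      rw [hb.pushDiv_apply, hb.ord_placeMap, hg v]
    · rw [hb.pushDiv_apply_of_notMem D hw]
      exact (not_ne_iff.mp fun h => hw (hb.mem_range_placeMap h)).symm

/-- The map on divisors of degree zero. -/
def IsBaseChange.pushDegZero (hb : IsBaseChange e φ) :
    Divisor.degZero (K := K₀) (F := F₀) →+ Divisor.degZero (K := K) (F := F) :=
  (hb.pushDiv.domRestrict _).codRestrict _ fun D =>
    Divisor.mem_degZero.mpr (by
      show Divisor.degree (hb.pushDiv D) = 0
      rw [hb.degree_pushDiv]; exact Divisor.mem_degZero.mp D.2)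

/-- The map on `Pic⁰`. -/
def IsBaseChange.pic0Map (hb : IsBaseChange e φ) : Pic0 K₀ F₀ →+ Pic0 K F :=
  QuotientAddGroup.map _ _ hb.pushDegZero fun D hD => by
    rw [AddSubgroup.mem_comap, AddSubgroup.mem_addSubgroupOf]
    exact (hb.pushDiv_mem_principal_iff (Divisor.mem_degZero.mp D.2)).mpr hD

theorem IsBaseChange.pic0Map_mk (hb : IsBaseChange e φ)
    (D : Divisor.degZero (K := K₀) (F := F₀)) :
    hb.pic0Map (Pic0.mk D) = Pic0.mk (hb.pushDegZero D) := rfl

theorem IsBaseChange.pic0Map_injective (hb : IsBaseChange e φ) :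
    Function.Injective hb.pic0Map := by
  rw [injective_iff_map_eq_zero]
  intro c hc
  obtain ⟨D, rfl⟩ := Pic0.mk_surjective c
  rw [hb.pic0Map_mk, Pic0.mk, QuotientAddGroup.eq_zero_iff, AddSubgroup.mem_addSubgroupOf] at hc
  rw [Pic0.mk, QuotientAddGroup.eq_zero_iff, AddSubgroup.mem_addSubgroupOf]
  exact (hb.pushDiv_mem_principal_iff (Divisor.mem_degZero.mp D.2)).mp hc

theorem IsBaseChange.exists_pushDegZero_eq (hb : IsBaseChange e φ)
    (D : Divisor.degZero (K := K) (F := F))
    (hD : ∀ w ∈ (D : Divisor K F).support, w ∈ Set.range hb.placeMap) :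
    ∃ D₀, hb.pushDegZero D₀ = D := by
  have h1 : hb.pushDiv (Finsupp.comapDomain hb.placeMap (D : Divisor K F)
      hb.placeMap_injective.injOn) = (D : Divisor K F) :=
    Finsupp.mapDomain_comapDomain _ hb.placeMap_injective _ fun w hw => hD w hw
  exact ⟨⟨Finsupp.comapDomain hb.placeMap (D : Divisor K F) hb.placeMap_injective.injOn,
    Divisor.mem_degZero.mpr (by
      rw [← hb.degree_pushDiv, h1]
      exact Divisor.mem_degZero.mp D.2)⟩, Subtype.ext h1⟩

theorem IsBaseChange.pic0Map_mem_torsion_iff (hb : IsBaseChange e φ) (c : Pic0 K₀ F₀) (n : ℕ) :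
    hb.pic0Map c ∈ Pic0.torsion K F n ↔ c ∈ Pic0.torsion K₀ F₀ n := by
  rw [Pic0.mem_torsion, Pic0.mem_torsion, ← map_zsmul, map_eq_zero_iff _ hb.pic0Map_injective]

/-- The map on torsion. -/
def IsBaseChange.torsionMap (hb : IsBaseChange e φ) (n : ℕ) :
    Pic0.torsion K₀ F₀ n → Pic0.torsion K F n :=
  fun c => ⟨hb.pic0Map c, (hb.pic0Map_mem_torsion_iff c n).mpr c.2⟩

theorem IsBaseChange.torsionMap_injective (hb : IsBaseChange e φ) (n : ℕ) :
    Function.Injective (hb.torsionMap n) := fun _ _ h =>
  Subtype.ext (hb.pic0Map_injective (congrArg Subtype.val h))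

end FLTA.PicTorsion
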