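import Fermat.Agent.PicTorsion.Descent.Basic
import Fermat.Agent.PicTorsion.Analytic.OrdAux
import Fermat.Agent.Curves.BasicCurve
import Fermat.Agent.Curves.BasicOrdExtra
import Fermat.Agent.Curves.RRMult
import Fermat.Agent.Curves.RRInstances
import Mathlib.LinearAlgebra.FiniteDimensional.Lemmas
import Mathlib.FieldTheory.Perfect

/-!
# Places under base change of constants

For `IsBaseChange`, degrees over simple transcendental subfields are preserved, and every place
of `F₀` has a unique place of `F` over it, with the same `ord`. The image consists of the places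
at which some element of `F₀` has non-zero order.
-/

set_option autoImplicit false
set_option linter.style.haveILetI false
set_option maxHeartbeats 400000

noncomputable section

open AlgebraicCurve

namespace FLTA.PicTorsion

variable {K₀ F₀ K F : Type*} [Field K₀] [Field F₀] [Algebra K₀ F₀] [Field K] [Field F]
  [Algebra K F] {e : K₀ →+* K} {φ : F₀ →+* F}

theorem IsBaseChange.linearIndependent' (hb : IsBaseChange e φ) {ι : Type*} {b : ι → F₀}
    (h : LinearIndependent K₀ b) : LinearIndependent K fun i => φ (b i) := by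
  classical
  rw [linearIndependent_iff']
  intro s g hg i hi
  let σ := s.equivFin
  have h1 := hb.linearIndependent (fun j => b (σ.symm j))
    (h.comp _ (Subtype.val_injective.comp σ.symm.injective))
  have h2 : ∑ j, g (σ.symm j) • φ (b (σ.symm j)) = 0 := by
    rw [σ.symm.sum_comp (fun a : s => g a • φ (b a)),
      Finset.sum_coe_sort s fun a => g a • φ (b a)]
    exact hg
  have h3 := (Fintype.linearIndependent_iff.mp h1) (fun j => g (σ.symm j)) h2 (σ ⟨i, hi⟩)
  simpa using h3

theorem IsBaseChange.transcendental (hb : IsBaseChange e φ) {f : F₀} (hf : Transcendental K₀ f) :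
    Transcendental K (φ f) := by
  have h1 : LinearIndependent K₀ fun i : ℕ => f ^ i := by
    have h2 := (Polynomial.basisMonomials K₀).linearIndependent.map'
      (Polynomial.aeval f).toLinearMap
      (LinearMap.ker_eq_bot.mpr (transcendental_iff_injective.mp hf))
    simpa [Function.comp_def] using h2
  have h3 := hb.linearIndependent' h1
  rw [transcendental_iff]
  intro r hr
  rw [Polynomial.aeval_eq_sum_range] at hr
  simp only [map_pow] at h3
  ext k
  by_cases hk : k < r.natDegree + 1
  · simpa using linearIndependent_iff'.mp h3 _ _ hr k (Finset.mem_range.mpr hk)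
  · simpa using Polynomial.coeff_eq_zero_of_natDegree_lt (show r.natDegree < k by omega)

theorem IsBaseChange.map_adjoin_simple_mem (hb : IsBaseChange e φ) {f c : F₀}
    (hc : c ∈ IntermediateField.adjoin K₀ ({f} : Set F₀)) :
    φ c ∈ IntermediateField.adjoin K ({φ f} : Set F) := by
  induction hc using IntermediateField.adjoin_induction with
  | mem x hx =>
    rw [Set.mem_singleton_iff] at hx
    exact hx ▸ IntermediateField.mem_adjoin_simple_self K (φ f)
  | algebraMap a => rw [hb.comm]; exact IntermediateField.algebraMap_mem _ _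
  | add x y _ _ hx hy => rw [map_add]; exact add_mem hx hy
  | inv x _ hx => rw [map_inv₀]; exact inv_mem hx
  | mul x y _ _ hx hy => rw [map_mul]; exact mul_mem hx hy

/-- The restriction of `φ` to `K₀(f) → K(φ f)`. -/
def IsBaseChange.simpleMap (hb : IsBaseChange e φ) (f : F₀) :
    IntermediateField.adjoin K₀ ({f} : Set F₀) →+* IntermediateField.adjoin K ({φ f} : Set F) where
  toFun c := ⟨φ c, hb.map_adjoin_simple_mem c.2⟩
  map_one' := Subtype.ext (map_one φ)
  map_zero' := Subtype.ext (map_zero φ)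
  map_add' a b := Subtype.ext (map_add φ _ _)
  map_mul' a b := Subtype.ext (map_mul φ _ _)

/-- A basis of `F₀` over `K₀(f)` gives one of `F` over `K(φ f)`. -/
theorem IsBaseChange.exists_basis (hb : IsBaseChange e φ) {f : F₀} (hf : Transcendental K₀ f)
    [FiniteDimensional (IntermediateField.adjoin K₀ ({f} : Set F₀)) F₀] :
    ∃ (b : Module.Basis (Fin (Module.finrank (IntermediateField.adjoin K₀ ({f} : Set F₀)) F₀))
        (IntermediateField.adjoin K₀ ({f} : Set F₀)) F₀)
      (B : Module.Basis (Fin (Module.finrank (IntermediateField.adjoin K₀ ({f} : Set F₀)) F₀))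
        (IntermediateField.adjoin K ({φ f} : Set F)) F),
      (∀ i, B i = φ (b i)) ∧ ∀ z i, B.repr (φ z) i = hb.simpleMap f (b.repr z i) := by
  classical
  set E₀ := IntermediateField.adjoin K₀ ({f} : Set F₀)
  set E := IntermediateField.adjoin K ({φ f} : Set F)
  set b := Module.finBasis E₀ F₀
  have hli : LinearIndependent E fun i => φ (b i) := by
    refine linearIndependent_adjoin_simple (b := fun i => φ (b i)) ?_
    have h1 := hb.linearIndependent' (linearIndependent_pow_mul hf b.linearIndependent)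
    simp only [map_mul, map_pow] at h1
    exact h1
  have hexp : ∀ z : F₀, φ z = ∑ i, hb.simpleMap f (b.repr z i) • φ (b i) := by
    intro z
    conv_lhs => rw [← b.sum_repr z, map_sum]
    refine Finset.sum_congr rfl fun i _ => ?_
    rw [IntermediateField.smul_def, IntermediateField.smul_def, smul_eq_mul, map_mul]
    rfl
  set S := Submodule.span E (Set.range fun i => φ (b i))
  have hsub : ∀ z : F₀, φ z ∈ S := fun z => by
    rw [hexp z]
    exact Submodule.sum_mem _ fun i _ => Submodule.smul_mem _ _ (Submodule.subset_span ⟨i, rfl⟩)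
  haveI : Module.Finite E S := Module.Finite.span_of_finite E (Set.finite_range _)
  have halg : ∀ x ∈ Set.range φ, IsIntegral E x := by
    rintro _ ⟨z, rfl⟩
    obtain ⟨q, hq, hq0⟩ := IsIntegral.of_finite E₀ z
    refine ⟨q.map (hb.simpleMap f), hq.map _, ?_⟩
    rw [Polynomial.eval₂_map]
    have h := congrArg φ hq0
    rw [map_zero, Polynomial.hom_eval₂] at h
    exact h
  have htop : IntermediateField.adjoin E (Set.range φ) = ⊤ := by
    refine eq_top_iff.mpr fun z _ => ?_
    have hz : z ∈ IntermediateField.adjoin K (Set.range φ) :=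
      hb.adjoin_range.symm ▸ IntermediateField.mem_top
    exact (IntermediateField.adjoin_le_iff (E := F) (T :=
      (IntermediateField.adjoin E (Set.range φ)).restrictScalars K)).mpr
      (IntermediateField.subset_adjoin E _) hz
  have hspan : ⊤ ≤ S := by
    intro z _
    have hz : z ∈ (IntermediateField.adjoin E (Set.range φ)).toSubalgebra := by
      rw [htop]; trivial
    rw [IntermediateField.adjoin_toSubalgebra_of_isAlgebraic fun x hx =>
      (halg x hx).isAlgebraic] at hz
    have hz' : z ∈ Subalgebra.toSubmodule (Algebra.adjoin E (Set.range φ)) := hz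
    rw [Algebra.adjoin_eq_span] at hz'
    refine (Submodule.span_le.mpr ?_) hz'
    rw [← RingHom.coe_range, ← Subring.coe_toSubmonoid, Submonoid.closure_eq]
    rintro _ ⟨w, rfl⟩
    exact hsub w
  refine ⟨b, Module.Basis.mk hli hspan, fun i => Module.Basis.mk_apply _ _ i, fun z i => ?_⟩
  have h1 : φ z = ∑ i, hb.simpleMap f (b.repr z i) • (Module.Basis.mk hli hspan) i := by
    simp only [Module.Basis.mk_apply]
    exact hexp z
  rw [h1, Module.Basis.repr_sum_self]

theorem IsBaseChange.finrank_adjoin_simple (hb : IsBaseChange e φ) {f : F₀}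
    (hf : Transcendental K₀ f)
    [FiniteDimensional (IntermediateField.adjoin K₀ ({f} : Set F₀)) F₀] :
    Module.finrank (IntermediateField.adjoin K ({φ f} : Set F)) F =
      Module.finrank (IntermediateField.adjoin K₀ ({f} : Set F₀)) F₀ := by
  obtain ⟨b, B, -, -⟩ := hb.exists_basis hf
  rw [Module.finrank_eq_card_basis B, Fintype.card_fin]

/-- A place of `F` not trivial on `F₀` restricts to a place of `F₀`. -/
theorem IsBaseChange.exists_restrict (hb : IsBaseChange e φ) (w : Place K F) {h₀ : F₀}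
    (h0 : w.ord (φ h₀) ≠ 0) :
    ∃ (v : Place K₀ F₀) (d : ℕ), 0 < d ∧ ∀ h, w.ord (φ h) = d * v.ord h := by
  classical
  have hne : h₀ ≠ 0 := by rintro rfl; simp at h0
  have hmul : ∀ {g g' : F₀}, g ≠ 0 → g' ≠ 0 →
      w.ord (φ (g * g')) = w.ord (φ g) + w.ord (φ g') := fun hg hg' => by
    rw [map_mul, w.ord_mul (by simpa using hg) (by simpa using hg')]
  have hex : ∃ k : ℕ, 0 < k ∧ ∃ g : F₀, g ≠ 0 ∧ w.ord (φ g) = k := by
    rcases lt_or_gt_of_ne h0 with h | h
    · exact ⟨(-w.ord (φ h₀)).toNat, by omega, h₀⁻¹, inv_ne_zero hne,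
        by rw [map_inv₀, w.ord_inv]; omega⟩
    · exact ⟨(w.ord (φ h₀)).toNat, by omega, h₀, hne, by omega⟩
  obtain ⟨hd, π, hπ0, hπ⟩ := Nat.find_spec hex
  set d := Nat.find hex with hdef
  have hdvd : ∀ h : F₀, h ≠ 0 → (d : ℤ) ∣ w.ord (φ h) := by
    intro h hh
    by_contra hnd
    have hr : 0 < w.ord (φ h) % d := lt_of_le_of_ne (Int.emod_nonneg _ (by omega))
      (fun h' => hnd (Int.dvd_of_emod_eq_zero h'.symm))
    have hlt := Int.emod_lt_of_pos (w.ord (φ h)) (show (0 : ℤ) < d by omega)
    refine Nat.find_min hex (m := (w.ord (φ h) % d).toNat) (by omega)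
      ⟨by omega, h * π ^ (-(w.ord (φ h) / d)), mul_ne_zero hh (zpow_ne_zero _ hπ0), ?_⟩
    rw [hmul hh (zpow_ne_zero _ hπ0), map_zpow₀, w.ord_zpow, hπ, Int.toNat_of_nonneg hr.le,
      Int.emod_def]
    ring
  -- the restricted valuation ring
  set A : ValuationSubring F₀ := w.toValuationSubring.comap φ with hA
  have hmem : ∀ h : F₀, h ≠ 0 → (h ∈ A ↔ 0 ≤ w.ord (φ h)) := fun h hh => by
    rw [hA, ValuationSubring.mem_comap]
    exact Curves.mem_iff_ord_nonneg w (by simpa using hh)
  have hπA : π ∈ A := (hmem π hπ0).mpr (by omega)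
  have hAK : ∀ a : K₀, algebraMap K₀ F₀ a ∈ A := fun a => by
    rw [hA, ValuationSubring.mem_comap, hb.comm]
    exact w.algebraMap_mem' _
  have hAtop : A ≠ ⊤ := by
    intro htop
    have : π⁻¹ ∈ A := htop ▸ ValuationSubring.mem_top _
    rw [hmem _ (inv_ne_zero hπ0), map_inv₀, w.ord_inv, hπ] at this
    omega
  have hfac : IsDiscreteValuationRing.HasUnitMulPowIrreducibleFactorization A := by
    have hirr : Irreducible (⟨π, hπA⟩ : A) := by
      refine ⟨fun hu => ?_, fun a b hab => ?_⟩
      · obtain ⟨c, hc⟩ := hu.exists_right_inv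
        have hc' : π * (c : F₀) = 1 := congrArg Subtype.val hc
        have hc0 : (c : F₀) ≠ 0 := right_ne_zero_of_mul_eq_one hc'
        have h1 := hmul hπ0 hc0
        rw [hc', map_one, w.ord_one, hπ] at h1
        have h2 := (hmem _ hc0).mp c.2
        omega
      · have hab' : π = (a : F₀) * (b : F₀) := congrArg Subtype.val hab
        have ha0 : (a : F₀) ≠ 0 := left_ne_zero_of_mul (hab' ▸ hπ0)
        have hb0 : (b : F₀) ≠ 0 := right_ne_zero_of_mul (hab' ▸ hπ0)
        have h1 := hmul ha0 hb0
        rw [← hab', hπ] at h1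
        have ha := (hmem _ ha0).mp a.2
        have hb' := (hmem _ hb0).mp b.2
        obtain ⟨i, hi⟩ := hdvd _ ha0
        obtain ⟨j, hj⟩ := hdvd _ hb0
        have hij : i + j = 1 := by
          have : (d : ℤ) * (i + j) = d * 1 := by rw [mul_add, ← hi, ← hj, ← h1, mul_one]
          exact mul_left_cancel₀ (by omega) this
        have hi0 : 0 ≤ i := nonneg_of_mul_nonneg_right (hi ▸ ha) (by omega)
        have hj0 : 0 ≤ j := nonneg_of_mul_nonneg_right (hj ▸ hb') (by omega)
        have unit : ∀ c : A, (c : F₀) ≠ 0 → w.ord (φ (c : F₀)) = 0 → IsUnit c := by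
          intro c hc0 hc
          refine ⟨⟨c, ⟨(c : F₀)⁻¹, (hmem _ (inv_ne_zero hc0)).mpr
            (by rw [map_inv₀, w.ord_inv]; omega)⟩, ?_, ?_⟩, rfl⟩
          · exact Subtype.ext (mul_inv_cancel₀ hc0)
          · exact Subtype.ext (inv_mul_cancel₀ hc0)
        rcases (show i = 0 ∨ j = 0 by omega) with h | h
        · exact Or.inl (unit a ha0 (by rw [hi, h, mul_zero]))
        · exact Or.inr (unit b hb0 (by rw [hj, h, mul_zero]))
    refine ⟨⟨π, hπA⟩, hirr, fun {x} hx => ?_⟩
    have hx0 : (x : F₀) ≠ 0 := fun h => hx (Subtype.ext h)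
    obtain ⟨i, hi⟩ := hdvd _ hx0
    have hinn : 0 ≤ i := nonneg_of_mul_nonneg_right (hi ▸ (hmem _ hx0).mp x.2) (by omega)
    have hy0 : (x : F₀) / π ^ i.toNat ≠ 0 := div_ne_zero hx0 (pow_ne_zero _ hπ0)
    have hyord : w.ord (φ ((x : F₀) / π ^ i.toNat)) = 0 := by
      rw [map_div₀, map_pow, ord_div w (by simpa using hx0) (pow_ne_zero _ (by simpa using hπ0)),
        Curves.ord_pow, hπ, hi, Int.toNat_of_nonneg hinn]
      ring
    let y : A := ⟨(x : F₀) / π ^ i.toNat, (hmem _ hy0).mpr hyord.ge⟩
    have hyu : IsUnit y := by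
      refine ⟨⟨y, ⟨((x : F₀) / π ^ i.toNat)⁻¹, (hmem _ (inv_ne_zero hy0)).mpr
        (by rw [map_inv₀, w.ord_inv, hyord]; simp)⟩, ?_, ?_⟩, rfl⟩
      · exact Subtype.ext (mul_inv_cancel₀ hy0)
      · exact Subtype.ext (inv_mul_cancel₀ hy0)
    refine ⟨i.toNat, hyu.unit, Subtype.ext ?_⟩
    show π ^ i.toNat * ((x : F₀) / π ^ i.toNat) = x
    rw [mul_comm, div_mul_cancel₀ _ (pow_ne_zero _ hπ0)]
  haveI : IsDiscreteValuationRing A :=
    IsDiscreteValuationRing.ofHasUnitMulPowIrreducibleFactorization hfac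
  let v : Place K₀ F₀ := ⟨A, hAK, hAtop, inferInstance⟩
  refine ⟨v, d, hd, fun h => ?_⟩
  rcases eq_or_ne h 0 with rfl | hh
  · simp
  obtain ⟨i, hi⟩ := hdvd h hh
  obtain ⟨ϖ, hϖ0, hϖ⟩ := Curves.exists_ord_eq_one v
  obtain ⟨j, hj⟩ := hdvd ϖ hϖ0
  have hord : ∀ g : F₀, g ≠ 0 → (0 ≤ v.ord g ↔ 0 ≤ w.ord (φ g)) := fun g hg => by
    rw [← Curves.mem_iff_ord_nonneg v hg]
    exact hmem g hg
  have hzero : ∀ g : F₀, g ≠ 0 → v.ord g = 0 → w.ord (φ g) = 0 := fun g hg hg0 => by
    have h1 := (hord g hg).mp hg0.ge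
    have h2 := (hord g⁻¹ (inv_ne_zero hg)).mp (by rw [v.ord_inv, hg0]; simp)
    rw [map_inv₀, w.ord_inv] at h2
    omega
  have hkey : ∀ g : F₀, g ≠ 0 → w.ord (φ g) = v.ord g * w.ord (φ ϖ) := by
    intro g hg
    have hz := hzero (g * ϖ ^ (-v.ord g)) (mul_ne_zero hg (zpow_ne_zero _ hϖ0)) (by
      rw [v.ord_mul hg (zpow_ne_zero _ hϖ0), v.ord_zpow, hϖ]; ring)
    rw [hmul hg (zpow_ne_zero _ hϖ0), map_zpow₀, w.ord_zpow] at hz
    linarith
  have hjd : j = 1 := by
    have h1 := hkey π hπ0
    rw [hπ, hj] at h1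
    have h2 : v.ord π * j = 1 := by
      have : (d : ℤ) * (v.ord π * j) = d * 1 := by rw [mul_one]; linarith
      exact mul_left_cancel₀ (by omega) this
    have h3 : 0 ≤ j := by
      have := (hord ϖ hϖ0).mp (by omega)
      exact nonneg_of_mul_nonneg_right (hj ▸ this) (by omega)
    rcases Int.mul_eq_one_iff_eq_one_or_neg_one.mp h2 with ⟨-, h⟩ | ⟨-, h⟩
    · exact h
    · omega
  rw [hkey h hh, hj, hjd, mul_one, mul_comm]

variable [IsAlgClosed K₀] [IsAlgClosed K] [CharZero K₀] [CharZero K]
  [Curves.IsSepFunctionField K₀ F₀] [Curves.IsSepFunctionField K F]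

theorem transcendental_of_ord_ne_zero_descent {f : F₀} {v : Place K₀ F₀} (h : v.ord f ≠ 0) :
    Transcendental K₀ f := fun halg => h (Curves.ord_eq_zero_of_isAlgebraic halg v)

/-- Every place of `F₀` has exactly one place of `F` over it, and it is unramified. -/
theorem IsBaseChange.exists_place (hb : IsBaseChange e φ) (v : Place K₀ F₀) :
    ∃ w : Place K F, (∀ h, w.ord (φ h) = v.ord h) ∧
      ∀ (w' : Place K F) (d : ℕ), 0 < d → (∀ h, w'.ord (φ h) = d * v.ord h) → w' = w := by
  classical
  set m : ℕ := 2 * genusFF K₀ F₀ + 1 with hm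
  obtain ⟨f, hf0, hfL, hfo⟩ := Curves.exists_mem_riemannRochSpace_ord_eq
    (D := Finsupp.single v (m : ℤ)) (by
      rw [Divisor.degree_single, IsCurveOver.deg_eq_one_of_isAlgClosed, hm]; push_cast; omega) v
  rw [Finsupp.single_eq_same] at hfo
  have hfneg : ∀ v', v' ≠ v → 0 ≤ v'.ord f := fun v' hv' => by
    have := (mem_riemannRochSpace_iff.mp hfL v').resolve_left hf0
    rwa [Finsupp.single_eq_of_ne hv', neg_zero] at this
  have hft : Transcendental K₀ f := transcendental_of_ord_ne_zero_descent (v := v) (by omega)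
  have hφt : Transcendental K (φ f) := hb.transcendental hft
  have hover : ∀ w : Place K F, w.ord (φ f) < 0 →
      ∃ d : ℕ, 0 < d ∧ ∀ h, w.ord (φ h) = d * v.ord h := by
    intro w hw
    obtain ⟨v', d, hd, hv'⟩ := hb.exists_restrict w (h₀ := f) hw.ne
    have : v' = v := by
      by_contra hne
      have h1 := hfneg v' hne
      rw [hv' f] at hw
      nlinarith
    exact ⟨d, hd, this ▸ hv'⟩
  -- degrees of the polar divisors
  haveI := Curves.finite_adjoin_of_transcendental (K := K₀) hft
  haveI := Curves.finite_adjoin_of_transcendental (K := K) hφt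
  haveI : CharZero (IntermediateField.adjoin K₀ ({f} : Set F₀)) :=
    charZero_of_injective_algebraMap (algebraMap K₀ _).injective
  haveI : CharZero (IntermediateField.adjoin K ({φ f} : Set F)) :=
    charZero_of_injective_algebraMap (algebraMap K _).injective
  haveI : Algebra.IsSeparable (IntermediateField.adjoin K₀ ({f} : Set F₀)) F₀ :=
    Algebra.IsAlgebraic.isSeparable_of_perfectField
  haveI : Algebra.IsSeparable (IntermediateField.adjoin K ({φ f} : Set F)) F :=
    Algebra.IsAlgebraic.isSeparable_of_perfectField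
  have h0 : (Module.finrank (IntermediateField.adjoin K₀ ({f} : Set F₀)) F₀ : ℤ) = m := by
    rw [← Curves.degree_polarDivisor hft (D := Finsupp.single v (m : ℤ)) fun v' => ?_,
      Divisor.degree_single, IsCurveOver.deg_eq_one_of_isAlgClosed, Nat.cast_one, mul_one]
    rcases eq_or_ne v' v with rfl | hne
    · rw [Finsupp.single_eq_same, hfo, neg_neg]; omega
    · rw [Finsupp.single_eq_of_ne hne]
      have := hfneg v' hne
      omega
  obtain ⟨D, hD, -⟩ := HasPrincipalDivisors.exists_divisor (K := K) (φ f) (by simpa using hf0)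
  set P : Divisor K F := D.mapRange (fun z => max (-z) 0) (by simp)
  have hP : ∀ w : Place K F, P w = max (-w.ord (φ f)) 0 := fun w => by
    rw [Finsupp.mapRange_apply, hD]
  have h1 : Divisor.degree P = (m : ℤ) := by
    rw [Curves.degree_polarDivisor hφt hP, hb.finrank_adjoin_simple hft, h0]
  rw [Curves.degree_eq_sum] at h1
  have hval : ∀ w ∈ P.support, ∃ d : ℕ, 0 < d ∧ (∀ h, w.ord (φ h) = d * v.ord h) ∧
      P w = d * m := by
    intro w hw
    rw [Finsupp.mem_support_iff, hP] at hw
    have hneg : w.ord (φ f) < 0 := by omega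
    obtain ⟨d, hd, hwd⟩ := hover w hneg
    refine ⟨d, hd, hwd, ?_⟩
    rw [hP, hwd f, hfo, mul_neg, neg_neg, max_eq_left (by positivity)]
  have hne : P.support.Nonempty := by
    rw [Finsupp.support_nonempty_iff]
    intro h
    rw [h, Finsupp.sum_zero_index] at h1
    omega
  obtain ⟨w, hw⟩ := hne
  obtain ⟨d, hd, hwd, hPw⟩ := hval w hw
  have hm0 : (0 : ℤ) < m := by omega
  have hle : ∀ u ∈ P.support, (m : ℤ) ≤ P u := fun u hu => by
    obtain ⟨d', hd', -, hPu⟩ := hval u hu
    rw [hPu]
    exact le_mul_of_one_le_left hm0.le (by exact_mod_cast hd')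
  rw [Finsupp.sum, ← Finset.add_sum_erase _ _ hw] at h1
  have hrest : ∀ u ∈ P.support.erase w, 0 ≤ P u := fun u hu =>
    hm0.le.trans (hle u (Finset.mem_of_mem_erase hu))
  have hnn := Finset.sum_nonneg hrest
  have hd1 : d = 1 := by
    have : (d : ℤ) * m ≤ 1 * m := by rw [← hPw]; linarith
    have := le_of_mul_le_mul_right this hm0
    omega
  refine ⟨w, fun h => by rw [hwd h, hd1]; simp, fun w' d' hd' hw' => ?_⟩
  by_contra hne'
  have hw'neg : w'.ord (φ f) < 0 := by
    rw [hw' f, hfo]
    exact mul_neg_of_pos_of_neg (by exact_mod_cast hd') (by omega)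
  have hmem' : w' ∈ P.support.erase w := by
    rw [Finset.mem_erase, Finsupp.mem_support_iff, hP]
    exact ⟨hne', by omega⟩
  have h2 := Finset.single_le_sum hrest hmem'
  have h3 := hle w' (Finset.mem_of_mem_erase hmem')
  have h4 := hle w hw
  linarith

/-- The place over a given place. -/
def IsBaseChange.placeMap (hb : IsBaseChange e φ) (v : Place K₀ F₀) : Place K F :=
  (hb.exists_place v).choose

theorem IsBaseChange.ord_placeMap (hb : IsBaseChange e φ) (v : Place K₀ F₀) (h : F₀) :
    (hb.placeMap v).ord (φ h) = v.ord h :=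
  (hb.exists_place v).choose_spec.1 h

theorem IsBaseChange.eq_placeMap_of_ord_eq (hb : IsBaseChange e φ) {v : Place K₀ F₀}
    {w : Place K F} {d : ℕ} (hd : 0 < d) (h : ∀ g, w.ord (φ g) = d * v.ord g) :
    w = hb.placeMap v :=
  (hb.exists_place v).choose_spec.2 w d hd h

theorem IsBaseChange.placeMap_injective (hb : IsBaseChange e φ) :
    Function.Injective hb.placeMap := fun v v' h =>
  Curves.place_ext_ord fun g => by rw [← hb.ord_placeMap v g, ← hb.ord_placeMap v' g, h]

theorem IsBaseChange.mem_range_placeMap (hb : IsBaseChange e φ) {w : Place K F} {h₀ : F₀}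
    (h : w.ord (φ h₀) ≠ 0) : w ∈ Set.range hb.placeMap := by
  obtain ⟨v, d, hd, hv⟩ := hb.exists_restrict w h
  exact ⟨v, (hb.eq_placeMap_of_ord_eq hd hv).symm⟩

end FLTA.PicTorsion
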