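import Fermat.Agent.PicTorsion.Descent.Basic
import Fermat.Agent.Curves.BasicCurve
import Mathlib.RingTheory.EssentialFiniteness
import Mathlib.RingTheory.Localization.FractionRing
import Mathlib.FieldTheory.Perfect

/-!
# Presentations `F = K(x, y)` with `p(x, y) = 0`

`IsPres x y p n`: `p ∈ K[X][Y]` has `Y`-degree `n`, vanishes at `(x, y)`, the monomials
`x ^ i * y ^ j` (`j < n`) are independent, and `x, y` generate. A presentation and an embedding of
constants determine a base change map into any field with the transported presentation.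
-/

set_option autoImplicit false

noncomputable section

open Polynomial

set_option maxHeartbeats 400000

namespace FLTA.PicTorsion

section

variable {K F : Type*} [Field K] [Field F] [Algebra K F]

/-- Evaluation of a bivariate polynomial, inner variable at `x`, outer at `y`. -/
def evalPair (x y : F) : Polynomial (Polynomial K) →+* F :=
  eval₂RingHom (Polynomial.aeval x).toRingHom y

theorem evalPair_apply (x y : F) (f : Polynomial (Polynomial K)) :
    evalPair x y f = f.eval₂ (Polynomial.aeval x).toRingHom y := rfl

/-- A plane presentation of a function field. -/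
structure IsPres (x y : F) (p : Polynomial (Polynomial K)) (n : ℕ) : Prop where
  natDegree_eq : p.natDegree = n
  pos : 0 < n
  root : evalPair x y p = 0
  linearIndependent : LinearIndependent K fun ij : ℕ × Fin n => x ^ ij.1 * y ^ (ij.2 : ℕ)
  adjoin_eq_top : IntermediateField.adjoin K {x, y} = ⊤

/-- Pseudo division. -/
theorem exists_pseudo_divMod (p f : Polynomial (Polynomial K)) (hp : 0 < p.natDegree) :
    ∃ (m : ℕ) (q r : Polynomial (Polynomial K)),
      C p.leadingCoeff ^ m * f = q * p + r ∧ r.natDegree < p.natDegree := by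
  induction hd : f.natDegree using Nat.strong_induction_on generalizing f with
  | _ d ih =>
    by_cases hlt : d < p.natDegree
    · exact ⟨0, 0, f, by simp, hd ▸ hlt⟩
    set g := C p.leadingCoeff * f - C f.leadingCoeff * X ^ (d - p.natDegree) * p with hg
    have hg_deg : g.natDegree < d := by
      have hle : g.natDegree ≤ d := by
        refine natDegree_sub_le_iff_left ?_ |>.mpr ?_
        · refine natDegree_mul_le.trans ?_
          have := natDegree_C_mul_X_pow_le f.leadingCoeff (d - p.natDegree)
          omega
        · exact (natDegree_C_mul_le _ _).trans hd.le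
      rcases hle.eq_or_lt with h | h
      · exfalso
        have hne : g ≠ 0 := by
          intro h0
          rw [h0, natDegree_zero] at h
          omega
        apply hne
        rw [← leadingCoeff_eq_zero, leadingCoeff, h, hg, coeff_sub, coeff_C_mul, mul_assoc,
          coeff_C_mul]
        have : (X ^ (d - p.natDegree) * p).coeff d = p.leadingCoeff := by
          rw [coeff_X_pow_mul', if_pos (by omega), Nat.sub_sub_self (by omega), leadingCoeff]
        rw [this, leadingCoeff, leadingCoeff, hd]
        ring
      · exact h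
    obtain ⟨m, q, r, hqr, hr⟩ := ih _ hg_deg g rfl
    refine ⟨m + 1, q + C p.leadingCoeff ^ m * C f.leadingCoeff * X ^ (d - p.natDegree), r, ?_, hr⟩
    rw [add_mul, add_right_comm, ← hqr, hg, pow_succ]
    ring

namespace IsPres

variable {x y : F} {p : Polynomial (Polynomial K)} {n : ℕ} (h : IsPres x y p n)
include h

theorem transcendental : Transcendental K x := by
  rw [transcendental_iff]
  intro r hr
  have h1 : LinearIndependent K fun i : ℕ => x ^ i := by
    have := h.linearIndependent.comp (fun i : ℕ => (i, (⟨0, h.pos⟩ : Fin n)))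
      (fun a b hab => by simpa using hab)
    simpa [Function.comp_def] using this
  ext k
  by_cases hk : k < r.natDegree + 1
  · rw [aeval_eq_sum_range] at hr
    simpa using linearIndependent_iff'.mp h1 _ _ hr k (Finset.mem_range.mpr hk)
  · simpa using coeff_eq_zero_of_natDegree_lt (show r.natDegree < k by omega)

theorem leadingCoeff_aeval_ne_zero : Polynomial.aeval x p.leadingCoeff ≠ 0 := fun h0 =>
  have hp : p ≠ 0 := by
    rintro rfl
    have := h.natDegree_eq
    simp at this
    exact h.pos.ne this
  leadingCoeff_ne_zero.mpr hp (transcendental_iff.mp h.transcendental _ h0)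

theorem eq_zero_of_natDegree_lt {r : Polynomial (Polynomial K)} (hr : r.natDegree < n)
    (h0 : evalPair x y r = 0) : r = 0 := by
  have hli : LinearIndependent (IntermediateField.adjoin K ({x} : Set F))
      (fun j : Fin n => y ^ (j : ℕ)) :=
    linearIndependent_adjoin_simple (b := fun j : Fin n => y ^ (j : ℕ)) h.linearIndependent
  have hmem : ∀ c : Polynomial K, Polynomial.aeval x c ∈ IntermediateField.adjoin K ({x} : Set F) :=
    fun c => IntermediateField.algebra_adjoin_le_adjoin K _ (aeval_mem_adjoin_singleton K x)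
  let a : Fin n → IntermediateField.adjoin K ({x} : Set F) :=
    fun j => ⟨Polynomial.aeval x (r.coeff j), hmem _⟩
  have hsum : ∑ j : Fin n, a j • y ^ (j : ℕ) = 0 := by
    rw [← h0, evalPair_apply, eval₂_eq_sum_range' _ hr, Finset.sum_range]
    exact Finset.sum_congr rfl fun j _ => IntermediateField.smul_def _ _
  have h1 := linearIndependent_iff'.mp hli Finset.univ a hsum
  ext j : 1
  by_cases hj : j < n
  · rw [coeff_zero]
    exact transcendental_iff.mp h.transcendental _
      (congrArg Subtype.val (h1 ⟨j, hj⟩ (Finset.mem_univ _)) : Polynomial.aeval x (r.coeff j) = 0)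
  · rw [coeff_zero]
    exact coeff_eq_zero_of_natDegree_lt (lt_of_lt_of_le hr (not_lt.mp hj))

/-- The kernel of evaluation at `(x, y)`. -/
theorem evalPair_eq_zero_iff (f : Polynomial (Polynomial K)) :
    evalPair x y f = 0 ↔ ∃ (m : ℕ) (q : Polynomial (Polynomial K)),
      C p.leadingCoeff ^ m * f = q * p := by
  constructor
  · intro hf
    obtain ⟨m, q, r, hqr, hr⟩ := exists_pseudo_divMod p f (h.natDegree_eq.symm ▸ h.pos)
    have h0 : evalPair x y r = 0 := by
      have := congrArg (evalPair x y) hqr
      simpa [hf, h.root] using this.symm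
    rw [h.eq_zero_of_natDegree_lt (h.natDegree_eq ▸ hr) h0, add_zero] at hqr
    exact ⟨m, q, hqr⟩
  · rintro ⟨m, q, hq⟩
    have := congrArg (evalPair x y) hq
    rw [map_mul, map_mul, h.root, mul_zero, map_pow] at this
    refine (mul_eq_zero.mp this).resolve_left (pow_ne_zero _ ?_)
    simpa [evalPair_apply] using h.leadingCoeff_aeval_ne_zero

theorem exists_div (z : F) : ∃ f g : Polynomial (Polynomial K),
    evalPair x y g ≠ 0 ∧ z = evalPair x y f / evalPair x y g := by
  have hz : z ∈ IntermediateField.adjoin K {x, y} := h.adjoin_eq_top ▸ IntermediateField.mem_top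
  obtain ⟨r, hr, s, hs, rfl⟩ := IntermediateField.mem_adjoin_iff_div.mp hz
  have hle : ∀ w : F, w ∈ Algebra.adjoin K ({x, y} : Set F) →
      ∃ f : Polynomial (Polynomial K), evalPair x y f = w := by
    intro w hw
    induction hw using Algebra.adjoin_induction with
    | mem w hw =>
      rcases hw with rfl | rfl
      · exact ⟨C X, by simp [evalPair_apply]⟩
      · exact ⟨X, by simp [evalPair_apply]⟩
    | algebraMap a => exact ⟨C (C a), by simp [evalPair_apply]⟩
    | add u v _ _ hu hv =>
      obtain ⟨f, rfl⟩ := hu; obtain ⟨g, rfl⟩ := hv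
      exact ⟨f + g, map_add _ _ _⟩
    | mul u v _ _ hu hv =>
      obtain ⟨f, rfl⟩ := hu; obtain ⟨g, rfl⟩ := hv
      exact ⟨f * g, map_mul _ _ _⟩
  obtain ⟨f, rfl⟩ := hle r hr
  obtain ⟨g, rfl⟩ := hle s hs
  by_cases hg : evalPair x y g = 0
  · exact ⟨0, 1, by simp, by simp [hg]⟩
  · exact ⟨f, g, hg, rfl⟩

theorem exists_div_of_natDegree_lt {k : ℕ} (z : Fin k → F) :
    ∃ (d : F) (r : Fin k → Polynomial (Polynomial K)), d ≠ 0 ∧
      ∀ i, (r i).natDegree < n ∧ evalPair x y (r i) = z i * d := by
  classical
  choose f g hg hfg using fun i => h.exists_div (z i)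
  have key : ∀ f' : Polynomial (Polynomial K), ∃ (m : ℕ) (q r : Polynomial (Polynomial K)),
      C p.leadingCoeff ^ m * f' = q * p + r ∧ r.natDegree < p.natDegree :=
    fun f' => exists_pseudo_divMod p f' (h.natDegree_eq.symm ▸ h.pos)
  set c := evalPair x y (C p.leadingCoeff) with hc
  have hc0 : c ≠ 0 := by simpa [hc, evalPair_apply] using h.leadingCoeff_aeval_ne_zero
  set G : Fin k → Polynomial (Polynomial K) := fun i => f i * ∏ j ∈ Finset.univ.erase i, g j
  choose m q r hqr hr using fun i => key (G i)
  set M := Finset.univ.sup m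
  refine ⟨(∏ j, evalPair x y (g j)) * c ^ M,
    fun i => C (p.leadingCoeff ^ (M - m i)) * r i, ?_, fun i => ⟨?_, ?_⟩⟩
  · exact mul_ne_zero (Finset.prod_ne_zero_iff.mpr fun j _ => hg j) (pow_ne_zero _ hc0)
  · exact lt_of_le_of_lt (natDegree_C_mul_le _ _) (h.natDegree_eq ▸ hr i)
  · have h1 := congrArg (evalPair x y) (hqr i)
    rw [map_add, map_mul, map_mul (evalPair x y) (q i), h.root, mul_zero, zero_add, map_pow] at h1
    rw [map_mul, C_pow, map_pow, ← h1, hfg i, ← hc,
      ← Finset.mul_prod_erase Finset.univ _ (Finset.mem_univ i)]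
    simp only [G, map_mul, map_prod]
    have hle : m i ≤ M := Finset.le_sup (Finset.mem_univ i)
    conv_rhs => rw [← Nat.sub_add_cancel hle, pow_add]
    field_simp [hg i]

theorem isSepFunctionField [CharZero K] : Curves.IsSepFunctionField K F := by
  set E := IntermediateField.adjoin K ({x} : Set F)
  haveI : CharZero E := charZero_of_injective_algebraMap (algebraMap K E).injective
  have hy : IsIntegral E y := by
    rw [← isAlgebraic_iff_isIntegral]
    let φ : Polynomial K →+* E := (Polynomial.aeval (⟨x,
      IntermediateField.mem_adjoin_simple_self K x⟩ : E)).toRingHom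
    refine ⟨p.map φ, fun h0 => h.leadingCoeff_aeval_ne_zero ?_, ?_⟩
    · have h1 := congrArg (fun q : Polynomial E => ((q.coeff p.natDegree : E) : F)) h0
      simp only [coeff_map, coeff_zero, ZeroMemClass.coe_zero] at h1
      rw [← h1]
      exact Polynomial.aeval_algHom_apply E.val
        (⟨x, IntermediateField.mem_adjoin_simple_self K x⟩ : E) _
    · rw [aeval_def, eval₂_map, ← h.root, evalPair_apply]
      congr 1
      refine Polynomial.ringHom_ext (fun a => ?_) ?_ <;> simp [φ]
  have htop : IntermediateField.adjoin E ({y} : Set F) = ⊤ := by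
    apply IntermediateField.restrictScalars_injective K
    rw [IntermediateField.adjoin_simple_adjoin_simple, IntermediateField.restrictScalars_top,
      h.adjoin_eq_top]
  haveI : Module.Finite E F := by
    haveI := IntermediateField.adjoin.finiteDimensional hy
    exact Module.Finite.equiv
      ((IntermediateField.equivOfEq htop).trans IntermediateField.topEquiv).toLinearEquiv
  exact ⟨⟨x, h.transcendental, inferInstance, Algebra.IsAlgebraic.isSeparable_of_perfectField⟩⟩

theorem essFiniteType : Algebra.EssFiniteType K F := by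
  haveI : Algebra.EssFiniteType K (IntermediateField.adjoin K ({x, y} : Set F)) :=
    IntermediateField.essFiniteType_iff.mpr (IntermediateField.fg_adjoin_of_finite (Set.toFinite _))
  exact Algebra.EssFiniteType.of_surjective
    ((IntermediateField.equivOfEq h.adjoin_eq_top).trans IntermediateField.topEquiv).toAlgHom
    (AlgEquiv.surjective _)

end IsPres

end

section Lift

variable {K₀ F₀ K F : Type*} [Field K₀] [Field F₀] [Algebra K₀ F₀] [Field K] [Field F]
  [Algebra K F]

theorem evalPair_map (e : K₀ →+* K) (φ : F₀ →+* F)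
    (hφ : ∀ a, φ (algebraMap K₀ F₀ a) = algebraMap K F (e a)) (x y : F₀)
    (f : Polynomial (Polynomial K₀)) :
    φ (evalPair x y f) = evalPair (φ x) (φ y) (f.map (mapRingHom e)) := by
  rw [evalPair_apply, evalPair_apply, hom_eval₂, eval₂_map]
  congr 1
  refine Polynomial.ringHom_ext (fun a => ?_) ?_ <;> simp [hφ]

/-- A presentation and its transport along `e` determine a base change. -/
theorem IsPres.exists_isBaseChange {x y : F₀} {p : Polynomial (Polynomial K₀)} {n : ℕ}
    (h : IsPres x y p n) (e : K₀ →+* K) {x' y' : F}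
    (h' : IsPres x' y' (p.map (mapRingHom e)) n) :
    ∃ φ : F₀ →+* F, IsBaseChange e φ ∧ φ x = x' ∧ φ y = y' := by
  set ψ : Polynomial (Polynomial K₀) →+* F₀ := evalPair x y with hψ
  set ψ' : Polynomial (Polynomial K₀) →+* F := (evalPair x' y').comp (mapRingHom (mapRingHom e))
  have hlc : (p.map (mapRingHom e)).leadingCoeff = (p.leadingCoeff).map e :=
    leadingCoeff_map_of_injective (map_injective e e.injective) p
  have hker : ∀ f, ψ f = 0 ↔ ψ' f = 0 := by
    intro f
    constructor
    · intro hf
      obtain ⟨m, q, hq⟩ := (h.evalPair_eq_zero_iff f).mp hf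
      refine (h'.evalPair_eq_zero_iff _).mpr ⟨m, q.map (mapRingHom e), ?_⟩
      have := congrArg (Polynomial.map (mapRingHom e)) hq
      simpa [hlc] using this
    · intro hf
      obtain ⟨m, q, r, hqr, hr⟩ := exists_pseudo_divMod p f (h.natDegree_eq.symm ▸ h.pos)
      have h1 := congrArg ψ' hqr
      have hp : ψ' p = 0 := h'.root
      rw [map_mul, map_add, map_mul, hf, hp, mul_zero, mul_zero, zero_add] at h1
      have hr0 : r.map (mapRingHom e) = 0 := h'.eq_zero_of_natDegree_lt
        (lt_of_le_of_lt natDegree_map_le (h.natDegree_eq ▸ hr)) h1.symm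
      rw [Polynomial.map_eq_zero_iff (map_injective e e.injective)] at hr0
      exact (h.evalPair_eq_zero_iff f).mpr ⟨m, q, by rw [hqr, hr0, add_zero]⟩
  haveI : IsFractionRing ψ.range F₀ := IsFractionRing.of_field ψ.range F₀ fun z => by
    obtain ⟨f, g, -, hz⟩ := h.exists_div z
    exact ⟨⟨_, f, rfl⟩, ⟨_, g, rfl⟩, hz⟩
  set g : ψ.range →+* F := ψ.rangeRestrict.liftOfSurjective ψ.rangeRestrict_surjective ⟨ψ',
    fun f hf => (hker f).mp (congrArg Subtype.val (RingHom.mem_ker.mp hf))⟩
  have hg : ∀ f, g (ψ.rangeRestrict f) = ψ' f := fun f =>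
    RingHom.liftOfRightInverse_comp_apply _ _ _ _ f
  have hginj : Function.Injective g := by
    rw [injective_iff_map_eq_zero]
    intro z hz
    obtain ⟨f, rfl⟩ := ψ.rangeRestrict_surjective z
    rw [hg] at hz
    exact Subtype.ext ((hker f).mpr hz)
  set φ : F₀ →+* F := IsFractionRing.lift hginj
  have hφ : ∀ f, φ (ψ f) = ψ' f := fun f =>
    (IsFractionRing.lift_algebraMap hginj (ψ.rangeRestrict f)).trans (hg f)
  have hcomm : ∀ a, φ (algebraMap K₀ F₀ a) = algebraMap K F (e a) := by
    intro a
    have := hφ (C (C a))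
    simpa [ψ, ψ', evalPair_apply] using this
  have hx : φ x = x' := by simpa [ψ, ψ', evalPair_apply] using hφ (C X)
  have hy : φ y = y' := by simpa [ψ, ψ', evalPair_apply] using hφ X
  refine ⟨φ, ⟨hcomm, fun {k} v hv => ?_, ?_⟩, hx, hy⟩
  · classical
    obtain ⟨d, r, hd, hr⟩ := h.exists_div_of_natDegree_lt v
    set N := (Finset.univ.sup fun ij : Fin k × Fin n => ((r ij.1).coeff ij.2).natDegree) + 1
    let S := Fin N × Fin n
    let w : Fin k → S → K₀ := fun i s => ((r i).coeff s.2).coeff s.1
    have hexp : ∀ i, v i * d = ∑ s : S, w i s • (x ^ (s.1 : ℕ) * y ^ (s.2 : ℕ)) := by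
      intro i
      rw [← (hr i).2, evalPair_apply, eval₂_eq_sum_range' _ (hr i).1, Finset.sum_range,
        Fintype.sum_prod_type_right]
      refine Finset.sum_congr rfl fun j _ => ?_
      rw [AlgHom.toRingHom_eq_coe, RingHom.coe_coe, aeval_eq_sum_range' (n := N)
        (Nat.lt_succ_of_le (Finset.le_sup (f := fun ij : Fin k × Fin n =>
          ((r ij.1).coeff ij.2).natDegree) (Finset.mem_univ (i, j)))), Finset.sum_mul,
        Finset.sum_range]
      exact Finset.sum_congr rfl fun a _ => smul_mul_assoc _ _ _
    have hw : LinearIndependent K₀ w := by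
      rw [Fintype.linearIndependent_iff] at hv ⊢
      intro c hc
      refine hv c ((mul_eq_zero.mp ?_).resolve_right hd)
      rw [Finset.sum_mul]
      calc ∑ i, c i • v i * d = ∑ i, ∑ s : S, (c i * w i s) • (x ^ (s.1 : ℕ) * y ^ (s.2 : ℕ)) := by
            simp [smul_mul_assoc, hexp, Finset.smul_sum, smul_smul]
        _ = 0 := by
          rw [Finset.sum_comm]
          refine Finset.sum_eq_zero fun s _ => ?_
          rw [← Finset.sum_smul]
          have := congrArg (fun u => u s) hc
          simp only [Finset.sum_apply, Pi.smul_apply, smul_eq_mul, Pi.zero_apply] at this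
          rw [this, zero_smul]
    have hw' := linearIndependent_map_pi e hw
    have hi : LinearIndependent K fun s : S => x' ^ (s.1 : ℕ) * y' ^ (s.2 : ℕ) :=
      h'.linearIndependent.comp (fun s : S => ((s.1 : ℕ), s.2)) fun a b hab => by
        simp only [Prod.mk.injEq] at hab
        exact Prod.ext (Fin.ext hab.1) hab.2
    rw [Fintype.linearIndependent_iff] at hw' ⊢
    intro c hc
    refine hw' c (funext fun s => ?_)
    have hc' : ∑ s : S, (∑ i, c i * e (w i s)) • (x' ^ (s.1 : ℕ) * y' ^ (s.2 : ℕ)) = 0 := by
      calc _ = ∑ i, c i • (φ (v i * d)) := by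
            simp_rw [Finset.sum_smul]
            rw [Finset.sum_comm]
            refine Finset.sum_congr rfl fun i _ => ?_
            rw [hexp, map_sum, Finset.smul_sum]
            refine Finset.sum_congr rfl fun s _ => ?_
            rw [Algebra.smul_def (w i s), map_mul, hcomm, map_mul, map_pow, map_pow, hx, hy,
              ← Algebra.smul_def, smul_smul]
        _ = (∑ i, c i • φ (v i)) * φ d := by
            simp [Finset.sum_mul, map_mul, smul_mul_assoc]
        _ = 0 := by
            simp only [Function.comp_apply] at hc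
            rw [hc, zero_mul]
    simpa using (Fintype.linearIndependent_iff.mp hi) _ hc' s
  · rw [eq_top_iff, ← h'.adjoin_eq_top]
    refine IntermediateField.adjoin.mono K _ _ ?_
    rintro _ (rfl | rfl)
    · exact ⟨x, hx⟩
    · exact ⟨y, hy⟩

theorem IsPres.ringHom_ext {x y : F₀} {p : Polynomial (Polynomial K₀)} {n : ℕ}
    (h : IsPres x y p n) {φ φ' : F₀ →+* F}
    (hc : ∀ a, φ (algebraMap K₀ F₀ a) = φ' (algebraMap K₀ F₀ a)) (hx : φ x = φ' x)
    (hy : φ y = φ' y) : φ = φ' := by
  ext z
  have hz : z ∈ IntermediateField.adjoin K₀ {x, y} := h.adjoin_eq_top ▸ IntermediateField.mem_top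
  induction hz using IntermediateField.adjoin_induction with
  | mem w hw => rcases hw with rfl | rfl <;> assumption
  | algebraMap a => exact hc a
  | add u v _ _ hu hv => rw [map_add, map_add, hu, hv]
  | inv u _ hu => rw [map_inv₀, map_inv₀, hu]
  | mul u v _ _ hu hv => rw [map_mul, map_mul, hu, hv]

end Lift

end FLTA.PicTorsion
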