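import Fermat.Agent.PicTorsion.Descent.Pic
import Fermat.Agent.PicTorsion.Descent.Model
import Fermat.Agent.PicTorsion.Analytic.Main

/-!
# Rigidity of torsion classes

Over `ℂ` every torsion class of the base change of a function field over a countable algebraically
closed field comes from that field: otherwise moving the transcendental coordinates of the unique
effective representative by embeddings would give infinitely many torsion classes.
-/

set_option autoImplicit false
set_option linter.style.haveILetI false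
set_option linter.unusedSectionVars false
set_option maxHeartbeats 400000

noncomputable section

open AlgebraicCurve Polynomial

namespace FLTA.PicTorsion

section Values

variable {K F : Type*} [Field K] [Field F] [Algebra K F] [IsAlgClosed K]
  [Curves.IsSepFunctionField K F]

/-- At every place where `x` is regular it is congruent to a unique constant. -/
theorem exists_ord_sub_algebraMap_pos {x : F} (hx : Transcendental K x) (w : Place K F)
    (hw : 0 ≤ w.ord x) : ∃ c : K, 0 < w.ord (x - algebraMap K F c) := by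
  obtain ⟨c, hc⟩ := Curves.exists_adicValuation_sub_algebraMap_lt w (h := x)
    (by rw [w.adicValuation_le_one_iff]; exact Or.inr hw)
  have hne : x - algebraMap K F c ≠ 0 := fun h0 =>
    hx (by rw [sub_eq_zero.mp h0]; exact isAlgebraic_algebraMap c)
  refine ⟨c, ?_⟩
  rw [w.adicValuation_eq_exp_neg_ord hne, ← WithZero.exp_zero, WithZero.exp_lt_exp] at hc
  omega

theorem ord_sub_algebraMap_pos_unique (w : Place K F) {x : F} {a b : K}
    (ha : 0 < w.ord (x - algebraMap K F a)) (hb : 0 < w.ord (x - algebraMap K F b)) : a = b := by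
  by_contra hne
  have hd : algebraMap K F (b - a) ≠ 0 := by
    simpa [sub_eq_zero] using fun h : b = a => hne h.symm
  have h1 : algebraMap K F (b - a) = (x - algebraMap K F a) + -(x - algebraMap K F b) := by
    rw [map_sub]; ring
  have h2 := Curves.min_ord_le_ord_add w (h1 ▸ hd)
  rw [← h1, Curves.ord_neg, Curves.ord_algebraMap] at h2
  omega

open Classical in
/-- The value of `x` at a place (`0` at its poles). -/
def xval (x : F) (w : Place K F) : K :=
  if h : ∃ c : K, 0 < w.ord (x - algebraMap K F c) then h.choose else 0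

theorem ord_sub_xval_pos {x : F} (hx : Transcendental K x) (w : Place K F) (hw : 0 ≤ w.ord x) :
    0 < w.ord (x - algebraMap K F (xval x w)) := by
  have h := exists_ord_sub_algebraMap_pos hx w hw
  rw [xval, dif_pos h]
  exact h.choose_spec

end Values

section Range

variable {K₀ F₀ K F : Type*} [Field K₀] [Field F₀] [Algebra K₀ F₀] [Field K] [Field F]
  [Algebra K F] {e : K₀ →+* K} {φ : F₀ →+* F}
variable [IsAlgClosed K₀] [IsAlgClosed K] [CharZero K₀] [CharZero K]
  [Curves.IsSepFunctionField K₀ F₀] [Curves.IsSepFunctionField K F]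

/-- A place at which `x` has value in `K₀` or a pole lies over a place of `F₀`. -/
theorem IsBaseChange.mem_range_of_xval (hb : IsBaseChange e φ) {x : F} {x₀ : F₀}
    (hx₀ : φ x₀ = x) (hx : Transcendental K x) {w : Place K F}
    (hw : 0 ≤ w.ord x → xval x w ∈ Set.range e) : w ∈ Set.range hb.placeMap := by
  by_cases h : 0 ≤ w.ord x
  · obtain ⟨a, ha⟩ := hw h
    refine hb.mem_range_placeMap (h₀ := x₀ - algebraMap K₀ F₀ a) ?_
    rw [map_sub, hx₀, hb.comm, ha]
    exact (ord_sub_xval_pos hx w h).ne'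
  · exact hb.mem_range_placeMap (h₀ := x₀) (by rw [hx₀]; omega)

end Range

section Complex

variable {K₀ F₀ : Type*} [Field K₀] [Field F₀] [Algebra K₀ F₀] [IsAlgClosed K₀] [CharZero K₀]
  [Countable K₀] [Curves.IsSepFunctionField K₀ F₀]
variable {F : Type} [Field F] [Algebra ℂ F] [Curves.IsSepFunctionField ℂ F]
variable {e : K₀ →+* ℂ} {φ : F₀ →+* F}

/-- Every torsion class over `ℂ` comes from the countable field. -/
theorem torsionMap_surjective (hb : IsBaseChange e φ) {x₀ y₀ : F₀}
    {p : Polynomial (Polynomial K₀)} {m : ℕ} (h : IsPres x₀ y₀ p m)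
    (h' : IsPres (φ x₀) (φ y₀) (p.map (mapRingHom e)) m) (n : ℕ)
    [Finite (Pic0.torsion ℂ F n)] : Function.Surjective (hb.torsionMap n) := by
  classical
  set x := φ x₀ with hxdef
  have hx : Transcendental ℂ x := h'.transcendental
  rintro ⟨c, hc⟩
  obtain ⟨D, rfl⟩ := Pic0.mk_surjective c
  -- a base point among the poles of `x`
  obtain ⟨O, hO⟩ := Curves.exists_ord_pos_of_transcendental (K := ℂ) (f := x⁻¹)
    (fun halg => hx (inv_inv x ▸ halg.inv))
  rw [Place.ord_inv] at hO
  -- minimal effective representative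
  have hdegn : ∀ k : ℕ, Divisor.degree ((D : Divisor ℂ F) + Finsupp.single O (k : ℤ)) = k := by
    intro k
    rw [map_add, Divisor.mem_degZero.mp D.2, Divisor.degree_single,
      IsCurveOver.deg_eq_one_of_isAlgClosed]
    simp
  have hex : ∃ k : ℕ, 1 ≤ Curves.ell ((D : Divisor ℂ F) + Finsupp.single O (k : ℤ)) := by
    refine ⟨genusFF ℂ F, ?_⟩
    have h1 := Curves.riemann_inequality ((D : Divisor ℂ F) + Finsupp.single O (genusFF ℂ F : ℤ))
    rw [hdegn] at h1
    omega
  set d := Nat.find hex with hd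
  have hd1 : Curves.ell ((D : Divisor ℂ F) + Finsupp.single O (d : ℤ)) = 1 := by
    refine le_antisymm ?_ (Nat.find_spec hex)
    rcases Nat.eq_zero_or_pos d with h0 | hpos
    · have h1 := Curves.ell_le_degree_add_one (D := (D : Divisor ℂ F) + Finsupp.single O (d : ℤ))
        (by rw [hdegn]; omega)
      rw [hdegn] at h1
      omega
    · have h1 := Curves.ell_le_ell_sub_single_add_one
        ((D : Divisor ℂ F) + Finsupp.single O (d : ℤ)) O
      have h2 : (D : Divisor ℂ F) + Finsupp.single O (d : ℤ) - Finsupp.single O 1 =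
          (D : Divisor ℂ F) + Finsupp.single O (((d - 1 : ℕ)) : ℤ) := by
        rw [add_sub_assoc, ← Finsupp.single_sub, Nat.cast_sub hpos, Nat.cast_one]
      rw [h2] at h1
      have h3 := Nat.find_min hex (show d - 1 < d by omega)
      omega
  obtain ⟨f, hf, hf0⟩ := Submodule.exists_mem_ne_zero_of_ne_bot
    (p := riemannRochSpace ((D : Divisor ℂ F) + Finsupp.single O (d : ℤ))) (fun hbot => by
      have h1 : Module.finrank ℂ (riemannRochSpace ((D : Divisor ℂ F) +
          Finsupp.single O (d : ℤ))) = 0 := by rw [hbot, finrank_bot]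
      rw [Curves.ell] at hd1
      omega)
  set E : Divisor ℂ F := Curves.divFn f + ((D : Divisor ℂ F) + Finsupp.single O (d : ℤ)) with hE
  have hE0 : 0 ≤ E := (Curves.mem_riemannRochSpace_iff_add_nonneg hf0).mp hf
  have hEl : Curves.ell E = 1 := by rw [hE, add_comm, Curves.ell_add_divFn hf0, hd1]
  let D' : Divisor.degZero (K := ℂ) (F := F) := ⟨E - Finsupp.single O (d : ℤ),
    Divisor.mem_degZero.mpr (by
      rw [map_sub, hE, map_add, Curves.degree_divFn, hdegn, Divisor.degree_single,
        IsCurveOver.deg_eq_one_of_isAlgClosed]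
      simp)⟩
  have hDD' : Pic0.mk D' = Pic0.mk D := by
    refine (QuotientAddGroup.eq.mpr ?_).symm
    rw [AddSubgroup.mem_addSubgroupOf]
    refine ⟨f, hf0, fun w => ?_⟩
    simp only [AddSubgroup.coe_add, AddSubgroup.coe_neg, D', hE, Finsupp.add_apply,
      Finsupp.neg_apply, Finsupp.sub_apply, Curves.divFn_apply]
    ring
  -- it suffices that all points of `E` lie over `K₀`
  suffices hsupp : ∀ w ∈ E.support, w ∈ Set.range hb.placeMap by
    have hOr : O ∈ Set.range hb.placeMap :=
      hb.mem_range_placeMap (h₀ := x₀) (ne_of_lt (show O.ord x < 0 by omega))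
    obtain ⟨D₀, hD₀⟩ := hb.exists_pushDegZero_eq D' fun w hw => by
      rcases Finset.mem_union.mp (Finsupp.support_sub hw) with h1 | h1
      · exact hsupp w h1
      · rw [Finset.mem_singleton.mp (Finsupp.support_single_subset h1)]
        exact hOr
    refine ⟨⟨Pic0.mk D₀, ?_⟩, Subtype.ext ?_⟩
    · rw [← hb.pic0Map_mem_torsion_iff, hb.pic0Map_mk, hD₀, hDD']
      exact hc
    · show hb.pic0Map (Pic0.mk D₀) = Pic0.mk D
      rw [hb.pic0Map_mk, hD₀, hDD']
  intro w₀ hw₀
  refine hb.mem_range_of_xval rfl hx fun hw₀x => ?_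
  by_contra ht
  -- a countable field containing the coordinates of `E`
  obtain ⟨k, hk, hkc, hkalg⟩ := exists_countable_isAlgClosed_subfield
    (Set.range e ∪ (xval x) '' (↑(insert O E.support) : Set (Place ℂ F)))
    ((Set.countable_range e).union ((Finset.countable_toSet _).image _))
  let e₃ : K₀ →+* k := e.codRestrict k.toSubring fun a => hk (Or.inl ⟨a, rfl⟩)
  have hp3 : (p.map (mapRingHom e₃)).map (mapRingHom k.subtype) = p.map (mapRingHom e) := by
    rw [Polynomial.map_map, mapRingHom_comp]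
    rfl
  obtain ⟨x₃, y₃, hP3, hx₃, hy₃⟩ := h'.restrict k hp3
  haveI := hP3.isSepFunctionField
  obtain ⟨φ₃, hb₃, hφx₃, hφy₃⟩ := hP3.exists_isBaseChange k.subtype
    (x' := x) (y' := φ y₀) (hp3.symm ▸ h')
  have hrange₃ : ∀ w ∈ insert O E.support, w ∈ Set.range hb₃.placeMap := fun w hw =>
    hb₃.mem_range_of_xval hφx₃ hx fun _ => ⟨⟨xval x w, hk (Or.inr ⟨w, hw, rfl⟩)⟩, rfl⟩
  obtain ⟨O₃, hO₃⟩ := hrange₃ O (Finset.mem_insert_self _ _)
  obtain ⟨D₃, hD₃⟩ := hb₃.exists_pushDegZero_eq D' fun w hw => by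
    refine hrange₃ w (Finset.mem_insert.mpr ?_)
    rcases Finset.mem_union.mp (Finsupp.support_sub hw) with h1 | h1
    · exact Or.inr h1
    · exact Or.inl (Finset.mem_singleton.mp (Finsupp.support_single_subset h1))
  set E₃ : Divisor k _ := (D₃ : Divisor k _) + Finsupp.single O₃ (d : ℤ) with hE₃
  have hE₃push : hb₃.pushDiv E₃ = E := by
    have h1 : hb₃.pushDiv (D₃ : Divisor k _) = (D' : Divisor ℂ F) := congrArg Subtype.val hD₃
    have h2 : hb₃.pushDiv (Finsupp.single O₃ (d : ℤ)) = Finsupp.single O (d : ℤ) :=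
      Finsupp.mapDomain_single.trans (by rw [hO₃])
    rw [hE₃, map_add, h1, h2]
    exact sub_add_cancel E _
  have hE₃nn : 0 ≤ E₃ := Finsupp.le_def.mpr fun v => by
    rw [← hb₃.pushDiv_apply E₃ v, hE₃push]
    exact Finsupp.le_def.mp hE0 _
  have hE₃l : Curves.ell E₃ = 1 := by rw [← hb₃.ell_pushDiv, hE₃push, hEl]
  have hD₃t : Pic0.mk D₃ ∈ Pic0.torsion k _ n := by
    rw [← hb₃.pic0Map_mem_torsion_iff, hb₃.pic0Map_mk, hD₃, hDD']
    exact hc
  obtain ⟨v₀, hv₀⟩ := hrange₃ w₀ (Finset.mem_insert_of_mem hw₀)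
  have hv₀E : E₃ v₀ ≠ 0 := by
    rw [← hb₃.pushDiv_apply E₃ v₀, hE₃push, hv₀]
    exact Finsupp.mem_support_iff.mp hw₀
  let t : k := ⟨xval x w₀, hk (Or.inr ⟨w₀, Finset.mem_insert_of_mem hw₀, rfl⟩)⟩
  have hv₀t : 0 < v₀.ord (x₃ - algebraMap k _ t) := by
    rw [← hb₃.ord_placeMap, map_sub, hφx₃, hb₃.comm, hv₀]
    exact ord_sub_xval_pos hx w₀ hw₀x
  -- embeddings moving `t`
  letI : Algebra K₀ k := e₃.toAlgebra
  have httr : Transcendental K₀ t := by
    intro halg
    have hmem : t ∈ (algebraMap K₀ k).range := minpoly.mem_range_of_degree_eq_one K₀ t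
      (IsAlgClosed.degree_eq_one_of_irreducible K₀ (minpoly.irreducible halg.isIntegral))
    obtain ⟨a, ha⟩ := hmem
    exact ht ⟨a, congrArg Subtype.val ha⟩
  haveI : Countable k := hkc
  haveI : IsAlgClosed k := hkalg
  have hinf := infinite_setOf_extend_apply e httr
  haveI := hinf.to_subtype
  set Z := {z : ℂ | ∃ e' : k →+* ℂ, e'.comp (algebraMap K₀ k) = e ∧ e' t = z}
  have hbase : ∀ z : Z, ∃ (e' : k →+* ℂ) (ψ : _ →+* F),
      IsBaseChange e' ψ ∧ e' t = z ∧ ψ x₃ = x := by
    rintro ⟨z, e', he', hz⟩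
    have hp : (p.map (mapRingHom e₃)).map (mapRingHom e') = p.map (mapRingHom e) := by
      rw [Polynomial.map_map, mapRingHom_comp, ← he']
      rfl
    obtain ⟨ψ, hψ, hψx, -⟩ := hP3.exists_isBaseChange e' (x' := x) (y' := φ y₀) (hp.symm ▸ h')
    exact ⟨e', ψ, hψ, hz, hψx⟩
  choose e' ψ hψ he't hψx using hbase
  -- two invariants with finitely many values
  obtain ⟨DX, hDX, -⟩ := HasPrincipalDivisors.exists_divisor (K := ℂ) x
    (fun h0 => hx (h0 ▸ isAlgebraic_zero))
  have hOpole : ∀ z, (hψ z).placeMap O₃ ∈ DX.support := fun z => by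
    rw [Finsupp.mem_support_iff, hDX]
    have h1 : ((hψ z).placeMap O₃).ord x = O.ord x := by
      refine (congrArg ((hψ z).placeMap O₃).ord (hψx z)).symm.trans
        (((hψ z).ord_placeMap O₃ x₃).trans ((hb₃.ord_placeMap O₃ x₃).symm.trans ?_))
      exact (congrArg₂ (fun (w : Place ℂ F) a => w.ord a) hO₃ hφx₃)
    omega
  let inv : Z → Pic0.torsion ℂ F n × DX.support := fun z =>
    ((hψ z).torsionMap n ⟨Pic0.mk D₃, hD₃t⟩, ⟨(hψ z).placeMap O₃, hOpole z⟩)
  obtain ⟨q, hq⟩ := Finite.exists_infinite_fiber inv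
  have hfib : (inv ⁻¹' {q}).Infinite := Set.infinite_coe_iff.mp hq
  obtain ⟨z₀, hz₀⟩ := hfib.nonempty
  set E' := (hψ z₀).pushDiv E₃
  have hsame : ∀ z ∈ inv ⁻¹' {q}, (hψ z).pushDiv E₃ = E' := by
    intro z hz
    have hzz : inv z = inv z₀ := hz.trans hz₀.symm
    have h1 : Pic0.mk ((hψ z₀).pushDegZero D₃) = Pic0.mk ((hψ z).pushDegZero D₃) :=
      (congrArg (fun q => ((q.1 : Pic0.torsion ℂ F n) : Pic0 ℂ F)) hzz).symm
    have h2 : (hψ z).placeMap O₃ = (hψ z₀).placeMap O₃ :=
      congrArg (fun q => ((q.2 : DX.support) : Place ℂ F)) hzz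
    obtain ⟨g, hg0, hg⟩ := AddSubgroup.mem_addSubgroupOf.mp (QuotientAddGroup.eq.mp h1)
    have hg' : ∀ w, ((hψ z).pushDiv E₃) w = E' w + w.ord g := by
      intro w
      have h3 := hg w
      rw [AddSubgroup.coe_add, AddSubgroup.coe_neg, Finsupp.add_apply, Finsupp.neg_apply] at h3
      change -((hψ z₀).pushDiv (D₃ : Divisor k _) w) + (hψ z).pushDiv (D₃ : Divisor k _) w = _ at h3
      have h4 : (hψ z).pushDiv (Finsupp.single O₃ (d : ℤ)) =
          (hψ z₀).pushDiv (Finsupp.single O₃ (d : ℤ)) :=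
        Finsupp.mapDomain_single.trans ((congrArg (fun w => Finsupp.single w (d : ℤ)) h2).trans
          Finsupp.mapDomain_single.symm)
      simp only [E', hE₃, map_add, Finsupp.add_apply, h4]
      omega
    have hE'nn : 0 ≤ E' := Finsupp.mapDomain_nonneg hE₃nn
    have hEznn : 0 ≤ (hψ z).pushDiv E₃ := Finsupp.mapDomain_nonneg hE₃nn
    have hgL : g ∈ riemannRochSpace E' := mem_riemannRochSpace_iff.mpr fun w => Or.inr (by
      have h4 : 0 ≤ (hψ z).pushDiv E₃ w := Finsupp.le_def.mp hEznn w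
      have := hg' w
      omega)
    have hone : (1 : F) ∈ riemannRochSpace E' := mem_riemannRochSpace_iff.mpr fun w => Or.inr (by
      have h4 : 0 ≤ E' w := Finsupp.le_def.mp hE'nn w
      rw [w.ord_one]; omega)
    have hdim : Module.finrank ℂ (riemannRochSpace E') = 1 := by
      show Curves.ell E' = 1
      rw [(hψ z₀).ell_pushDiv, hE₃l]
    obtain ⟨a, ha⟩ := exists_smul_eq_of_finrank_eq_one hdim
      (x := (⟨1, hone⟩ : riemannRochSpace E')) (by simp) ⟨g, hgL⟩
    have hga : g = algebraMap ℂ F a := by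
      rw [Algebra.algebraMap_eq_smul_one]
      exact (congrArg Subtype.val ha).symm
    ext w
    rw [hg' w, hga, Curves.ord_algebraMap, add_zero]
  have hmaps : Set.MapsTo (fun z => (hψ z).placeMap v₀) (inv ⁻¹' {q}) (E'.support : Set _) := by
    intro z hz
    rw [Finset.mem_coe, Finsupp.mem_support_iff, ← hsame z hz, (hψ z).pushDiv_apply]
    exact hv₀E
  have hinj : Set.InjOn (fun z => (hψ z).placeMap v₀) (inv ⁻¹' {q}) := by
    intro z _ z' _ hzz
    have h1 : ∀ u, 0 < ((hψ u).placeMap v₀).ord (x - algebraMap ℂ F (u : ℂ)) := fun u => by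
      have h5 : ((hψ u).placeMap v₀).ord (ψ u x₃ - algebraMap ℂ F (e' u t)) =
          v₀.ord (x₃ - algebraMap k _ t) := by
        rw [← (hψ u).comm, ← map_sub, (hψ u).ord_placeMap]
      have h6 : x - algebraMap ℂ F (u : ℂ) = ψ u x₃ - algebraMap ℂ F (e' u t) :=
        (congrArg₂ (fun a b => a - algebraMap ℂ F b) (hψx u) (he't u)).symm
      rw [h6, h5]
      exact hv₀t
    exact Subtype.ext (ord_sub_algebraMap_pos_unique _ (h1 z) (by
      have := h1 z'
      rwa [show (hψ z').placeMap v₀ = (hψ z).placeMap v₀ from hzz.symm] at this))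
  exact hfib (((Finset.finite_toSet _).subset hmaps.image_subset).of_finite_image hinj)

end Complex

end FLTA.PicTorsion
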