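import Fermat.Agent.PicTorsion.Descent.Places
import Mathlib.RingTheory.Trace.Basic
import Mathlib.RingTheory.Discriminant
import Mathlib.RingTheory.IntegralClosure.IntegralRestrict

/-!
# Functions with poles over `F₀` lie in the `K`-span of `F₀`
-/

set_option autoImplicit false
set_option linter.style.haveILetI false
set_option linter.unusedSectionVars false
set_option maxHeartbeats 400000

noncomputable section

open AlgebraicCurve IsDedekindDomain Polynomial

namespace FLTA.PicTorsion

/-- A function regular where `x` is regular is integral over `K[x]`, so its trace is a polynomial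
in `x`. -/
theorem exists_trace_eq_aeval {K F : Type*} [Field K] [Field F] [Algebra K F] {x : F}
    (hx : Transcendental K x)
    [FiniteDimensional (IntermediateField.adjoin K ({x} : Set F)) F]
    [Algebra.IsSeparable (IntermediateField.adjoin K ({x} : Set F)) F] {f : F}
    (hf : ∀ w : Place K F, 0 ≤ w.ord x → 0 ≤ w.ord f) :
    ∃ r : K[X], ((Algebra.trace (IntermediateField.adjoin K ({x} : Set F)) F f :
      IntermediateField.adjoin K ({x} : Set F)) : F) = Polynomial.aeval x r := by
  classical
  set E := IntermediateField.adjoin K ({x} : Set F)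
  letI := Curves.polyAlgebraAdjoin (K := K) x
  haveI := Curves.isScalarTower_polyAlgebraAdjoin (K := K) x
  haveI := Curves.isFractionRing_polyAlgebraAdjoin hx
  letI : Algebra K[X] F := ((algebraMap E F).comp (algebraMap K[X] E)).toAlgebra
  haveI : IsScalarTower K[X] E F := IsScalarTower.of_algebraMap_eq fun _ => rfl
  haveI : IsScalarTower K K[X] F := IsScalarTower.of_algebraMap_eq fun a => by
    rw [IsScalarTower.algebraMap_apply K E F, IsScalarTower.algebraMap_apply K K[X] E]
    rfl
  haveI : IsDedekindDomain (integralClosure K[X] F) :=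
    IsIntegralClosure.isDedekindDomain K[X] E F _
  haveI : IsFractionRing (integralClosure K[X] F) F :=
    integralClosure.isFractionRing_of_finite_extension E F
  have hev : ∀ r : K[X], algebraMap K[X] F r = Polynomial.aeval x r := fun r => by
    show algebraMap E F (Polynomial.aeval (IntermediateField.AdjoinSimple.gen K x) r) = _
    rw [← Polynomial.aeval_algebraMap_apply]
    rfl
  have hint : IsIntegral K[X] f := by
    have h : f ∈ (algebraMap (integralClosure K[X] F) F).range := by
      refine HeightOneSpectrum.mem_integers_of_valuation_le_one F f fun w => ?_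
      rcases eq_or_ne f 0 with rfl | hf0
      · simp
      set P := Place.ofHeightOneSpectrum (K := K) (F := F) w
      have hxP : 0 ≤ P.ord x := by
        have hmem := Curves.algebraMap_mem_ofHeightOneSpectrum (K := K) (F := F) w
          (algebraMap K[X] (integralClosure K[X] F) X)
        rw [← IsScalarTower.algebraMap_apply, hev, aeval_X] at hmem
        exact Curves.ord_nonneg_of_mem P hmem
      have h1 := hf P hxP
      rw [← Curves.mem_iff_ord_nonneg P hf0, Place.ofHeightOneSpectrum_toValuationSubring,
        Valuation.mem_valuationSubring_iff] at h1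
      exact h1
    obtain ⟨b, rfl⟩ := h
    exact b.2
  obtain ⟨r, hr⟩ := IsIntegrallyClosed.isIntegral_iff.mp
    (Algebra.isIntegral_trace (L := E) hint)
  refine ⟨r, ?_⟩
  rw [← hr, ← hev]
  rfl

variable {K₀ F₀ K F : Type*} [Field K₀] [Field F₀] [Algebra K₀ F₀] [Field K] [Field F]
  [Algebra K F] {e : K₀ →+* K} {φ : F₀ →+* F}

theorem IsBaseChange.mul_mem_span (hb : IsBaseChange e φ) {a b : F}
    (ha : a ∈ Submodule.span K (Set.range φ)) (hb' : b ∈ Submodule.span K (Set.range φ)) :
    a * b ∈ Submodule.span K (Set.range φ) := by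
  have h := Submodule.mul_mem_mul ha hb'
  rw [Submodule.span_mul_span] at h
  refine Submodule.span_mono ?_ h
  rintro _ ⟨_, ⟨u, rfl⟩, _, ⟨v, rfl⟩, rfl⟩
  exact ⟨u * v, map_mul φ u v⟩

theorem IsBaseChange.aeval_mem_span (hb : IsBaseChange e φ) (x : F₀) (r : K[X]) :
    Polynomial.aeval (φ x) r ∈ Submodule.span K (Set.range φ) := by
  rw [Polynomial.aeval_eq_sum_range]
  exact Submodule.sum_mem _ fun i _ =>
    Submodule.smul_mem _ _ (Submodule.subset_span ⟨x ^ i, map_pow φ x i⟩)

variable [IsAlgClosed K₀] [IsAlgClosed K] [CharZero K₀] [CharZero K]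
  [Curves.IsSepFunctionField K₀ F₀] [Curves.IsSepFunctionField K F]

/-- A function all whose poles lie over places of `F₀` is in the span of `F₀`. -/
theorem IsBaseChange.mem_span_range_of_poles (hb : IsBaseChange e φ) {f : F}
    (hf : ∀ w : Place K F, w.ord f < 0 → w ∈ Set.range hb.placeMap) :
    f ∈ Submodule.span K (Set.range φ) := by
  classical
  obtain ⟨x, hx, hfin, hsep⟩ := Curves.IsSepFunctionField.exists_separating (K := K₀) (F := F₀)
  have hφx : Transcendental K (φ x) := hb.transcendental hx
  haveI := Curves.finite_adjoin_of_transcendental (K := K) hφx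
  haveI : CharZero (IntermediateField.adjoin K ({φ x} : Set F)) :=
    charZero_of_injective_algebraMap (algebraMap K _).injective
  haveI : Algebra.IsSeparable (IntermediateField.adjoin K ({φ x} : Set F)) F :=
    Algebra.IsAlgebraic.isSeparable_of_perfectField
  set E₀ := IntermediateField.adjoin K₀ ({x} : Set F₀)
  set E := IntermediateField.adjoin K ({φ x} : Set F)
  haveI : FiniteDimensional E₀ F₀ := hfin
  haveI : Algebra.IsSeparable E₀ F₀ := hsep
  set S := Submodule.span K (Set.range φ)
  have hφS : ∀ z, φ z ∈ S := fun z => Submodule.subset_span ⟨z, rfl⟩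
  -- traces lie in `S`
  have htr : ∀ g : F, (∀ w : Place K F, w.ord g < 0 → w ∈ Set.range hb.placeMap) →
      ((Algebra.trace E F g : E) : F) ∈ S := by
    intro g hg
    rcases eq_or_ne g 0 with rfl | hg0
    · simp
    obtain ⟨D, hD, -⟩ := HasPrincipalDivisors.exists_divisor (K := K) g hg0
    set T := D.support.filter fun w => w.ord g < 0 ∧ 0 ≤ w.ord (φ x)
    have hfac : ∀ w ∈ T, ∃ c : K₀, 0 < w.ord (φ (x - algebraMap K₀ F₀ c)) := by
      intro w hw
      simp only [T, Finset.mem_filter] at hw
      obtain ⟨v, rfl⟩ := hg w hw.2.1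
      have hvx : 0 ≤ v.ord x := hb.ord_placeMap v x ▸ hw.2.2
      obtain ⟨c, hc⟩ := Curves.exists_adicValuation_sub_algebraMap_lt v (h := x)
        (by rw [v.adicValuation_le_one_iff]; exact Or.inr hvx)
      have hne : x - algebraMap K₀ F₀ c ≠ 0 := fun h0 =>
        hx (by rw [sub_eq_zero.mp h0]; exact isAlgebraic_algebraMap c)
      refine ⟨c, ?_⟩
      rw [hb.ord_placeMap]
      rw [v.adicValuation_eq_exp_neg_ord hne, ← WithZero.exp_zero, WithZero.exp_lt_exp] at hc
      omega
    choose c hc using hfac
    set p : F₀ := ∏ w ∈ T.attach, (x - algebraMap K₀ F₀ (c w.1 w.2)) ^ (-w.1.ord g).toNat with hp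
    have hne : ∀ a : K₀, x - algebraMap K₀ F₀ a ≠ 0 := fun a h0 =>
      hx (by rw [sub_eq_zero.mp h0]; exact isAlgebraic_algebraMap a)
    have hp0 : p ≠ 0 := Finset.prod_ne_zero_iff.mpr fun w _ => pow_ne_zero _ (hne _)
    have hφp0 : φ p ≠ 0 := by simpa using hp0
    have hpE : p ∈ E₀ := prod_mem fun w _ => pow_mem (sub_mem
      (IntermediateField.mem_adjoin_simple_self K₀ x) (IntermediateField.algebraMap_mem _ _)) _
    have hreg : ∀ w : Place K F, 0 ≤ w.ord (φ x) → 0 ≤ w.ord (g * φ p) := by
      intro w hwx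
      have hpos : ∀ a : K₀, 0 ≤ w.ord (φ (x - algebraMap K₀ F₀ a)) := fun a => by
        refine Curves.ord_nonneg_of_mem w ?_
        rw [map_sub, hb.comm]
        exact sub_mem (mem_of_ord_nonneg w hwx) (w.algebraMap_mem' _)
      rw [w.ord_mul hg0 hφp0, hp, map_prod,
        Curves.ord_prod w _ _ fun i _ => (map_ne_zero φ).mpr (pow_ne_zero _ (hne _))]
      have hterm : ∀ i ∈ T.attach,
          0 ≤ w.ord (φ ((x - algebraMap K₀ F₀ (c i.1 i.2)) ^ (-i.1.ord g).toNat)) := fun i _ => by
        rw [map_pow, Curves.ord_pow]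
        exact mul_nonneg (Int.natCast_nonneg _) (hpos _)
      by_cases hwg : w.ord g < 0
      · have hwT : w ∈ T := by
          simp only [T, Finset.mem_filter, Finsupp.mem_support_iff, hD]
          exact ⟨hwg.ne, hwg, hwx⟩
        have hsingle := Finset.single_le_sum hterm (Finset.mem_attach T ⟨w, hwT⟩)
        rw [map_pow, Curves.ord_pow, Int.toNat_of_nonneg (show 0 ≤ -w.ord g by omega)] at hsingle
        have h1 := hc w hwT
        have h2 : -w.ord g ≤ -w.ord g * w.ord (φ (x - algebraMap K₀ F₀ (c w hwT))) :=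
          le_mul_of_one_le_right (by omega) h1
        linarith
      · have := Finset.sum_nonneg hterm
        omega
    obtain ⟨r, hr⟩ := exists_trace_eq_aeval hφx hreg
    have hsmul : g * φ p = hb.simpleMap x ⟨p, hpE⟩ • g := by
      rw [IntermediateField.smul_def, smul_eq_mul, mul_comm]
      rfl
    rw [hsmul, map_smul] at hr
    have h1 : ((Algebra.trace E F g : E) : F) = φ p⁻¹ * Polynomial.aeval (φ x) r := by
      rw [← hr, map_inv₀]
      show _ = (φ p)⁻¹ * (φ p * _)
      rw [← mul_assoc, inv_mul_cancel₀ hφp0, one_mul]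
    rw [h1]
    exact hb.mul_mem_span (hφS _) (hb.aeval_mem_span x r)
  -- coordinates in a basis of `F₀`
  obtain ⟨b, B, hB, hrepr⟩ := hb.exists_basis hx
  have htrmap : ∀ z : F₀, Algebra.trace E F (φ z) = hb.simpleMap x (Algebra.trace E₀ F₀ z) := by
    intro z
    rw [Algebra.trace_eq_matrix_trace B, Algebra.trace_eq_matrix_trace b, Matrix.trace,
      Matrix.trace, map_sum]
    refine Finset.sum_congr rfl fun i _ => ?_
    simp only [Matrix.diag_apply, Algebra.leftMulMatrix_eq_repr_mul, hB, ← map_mul, hrepr]
  set G : Matrix _ _ E := Algebra.traceMatrix E B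
  set G₀ : Matrix _ _ E₀ := Algebra.traceMatrix E₀ b
  have hG : G = G₀.map (hb.simpleMap x) := by
    ext i j : 1
    simp only [G, G₀, Algebra.traceMatrix_apply, Algebra.traceForm_apply, Matrix.map_apply, hB,
      ← map_mul, htrmap]
  have hdet₀ : G₀.det ≠ 0 := by
    rw [← Algebra.discr_def]; exact Algebra.discr_not_zero_of_basis E₀ b
  have hinv : G₀⁻¹.map (hb.simpleMap x) * G = 1 := by
    rw [hG, ← Matrix.map_mul, Matrix.nonsing_inv_mul _ (isUnit_iff_ne_zero.mpr hdet₀),
      Matrix.map_one _ (map_zero _) (map_one _)]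
  set s := fun k => Algebra.trace E F (f * B k)
  have hs : Matrix.mulVec G (fun l => B.repr f l) = s := by
    ext1 k
    simp only [s, Matrix.mulVec, dotProduct, G, Algebra.traceMatrix_apply, Algebra.traceForm_apply]
    conv_rhs => rw [← B.sum_repr f, Finset.sum_mul, map_sum]
    refine Finset.sum_congr rfl fun l _ => ?_
    rw [smul_mul_assoc, map_smul, smul_eq_mul, mul_comm (B k) (B l), mul_comm]
  have hcoord : (fun l => B.repr f l) = Matrix.mulVec (G₀⁻¹.map (hb.simpleMap x)) s := by
    rw [← hs, Matrix.mulVec_mulVec, hinv, Matrix.one_mulVec]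
  rw [← B.sum_repr f]
  refine Submodule.sum_mem _ fun l _ => ?_
  rw [IntermediateField.smul_def, smul_eq_mul, show B.repr f l = _ from congrFun hcoord l, hB]
  refine hb.mul_mem_span ?_ (hφS _)
  simp only [Matrix.mulVec, dotProduct, Matrix.map_apply]
  push_cast
  refine Submodule.sum_mem _ fun k _ => hb.mul_mem_span (hφS _) (htr _ fun w hw => ?_)
  rw [hB] at hw
  by_cases h1 : w.ord f < 0
  · exact hf w h1
  · refine hb.mem_range_placeMap (h₀ := b k) fun h2 => ?_
    rcases eq_or_ne f 0 with h0 | h0
    · rw [h0, zero_mul, w.ord_zero] at hw; omega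
    · rw [w.ord_mul h0 (by simpa using b.ne_zero k)] at hw; omega

end FLTA.PicTorsion
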